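import Fermat.Agent.S36.Haupt.Val
import Fermat.Agent.S36.Mod.Objects
import Fermat.Agent.S36.Theta.Uniq
import Fermat.Agent.S36.Theta.IntDesc
import Fermat.Agent.S36.Theta.IntClear
import Fermat.Agent.S36.Abs.ValCrit
import Fermat.Agent.S36.Abs.Datum

/-!
# S36 / [VARPI1] + [C2] in the context `C : Ctx` of `Mod/Objects.lean`

The fields `ϖ_mem`, `ϖ_lt`, `ϖ_ram`, `ϖ_indep`, `c2` of `GeomDatum` concerning
`ϖ 1 = 1 - h(τ)/h(q²τ)` (`4 ∣ M`), and the hypothesis `hz` of `JTriple.cusp`.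
-/

set_option autoImplicit false
set_option linter.unusedSectionVars false

open ModularCurve Fermat.Agent.S24 Fermat.Agent.S28 Fermat.Agent.RED.Gauss

noncomputable section

namespace Fermat.Agent.S36

namespace Ctx

variable (C : Ctx)

/-! ### the specifications of `sig2`, `W2` -/

theorem sig2_const (a : Kb) :
    C.sig2 (algebraMap Kb (FN (C.M * C.q * C.q)) a) = HahnSeries.C a :=
  (exists_sigma2 C.M C.q C.hq C.hqM C.ζ C.hζ).choose_spec.1 a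

theorem sig2_al (y : FN (C.M * C.q)) :
    C.sig2 (heckeAlphaBar Kb (C.M * C.q) C.q y) = (y : LaurentSeries Kb) :=
  (exists_sigma2 C.M C.q C.hq C.hqM C.ζ C.hζ).choose_spec.2.1 y

theorem sig2_be_be (u : FN C.M) :
    C.sig2 (heckeBetaBar Kb (C.M * C.q) C.q (heckeBetaBar Kb C.M C.q u))
      = rot C.ζ (u : LaurentSeries Kb) :=
  (exists_sigma2 C.M C.q C.hq C.hqM C.ζ C.hζ).choose_spec.2.2 u

theorem W2_al_al (u : FN C.M) :
    C.W2 (heckeAlphaBar Kb (C.M * C.q) C.q (heckeAlphaBar Kb C.M C.q u))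
      = heckeBetaBar Kb (C.M * C.q) C.q (heckeBetaBar Kb C.M C.q u) :=
  (exists_W2 C.M C.q C.hq C.hqM).choose_spec.2.2.1 u

theorem W2_be_be (u : FN C.M) :
    C.W2 (heckeBetaBar Kb (C.M * C.q) C.q (heckeBetaBar Kb C.M C.q u))
      = heckeAlphaBar Kb (C.M * C.q) C.q (heckeAlphaBar Kb C.M C.q u) :=
  (exists_W2 C.M C.q C.hq C.hqM).choose_spec.2.2.2.2.1 u

theorem e3_zero_apply (y : C.F) :
    C.e3 0 y = ((embF0 C.A (C.M * C.q * C.q) y : FN (C.M * C.q * C.q)) : LaurentSeries Kb) := rfl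

theorem e3_one_apply (y : C.F) : C.e3 1 y = C.sig2 (embF0 C.A (C.M * C.q * C.q) y) := rfl

theorem e3_two_apply (y : C.F) :
    C.e3 2 y = ((C.W2 (embF0 C.A (C.M * C.q * C.q) y) : FN (C.M * C.q * C.q)) : LaurentSeries Kb) :=
  rfl

theorem val_one_sub_zeta : C.A.valuation (1 - (C.ζ : Kb)) < 1 :=
  valuation_one_sub_zeta_lt C.hq C.hA (IsPrimitiveRoot.coe_units_iff.mpr C.hζ)

theorem e3_natCast (i : Fin 3) (n : ℕ) : C.e3 i (n : C.F) = HahnSeries.C (n : Kb) := by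
  rw [map_natCast, map_natCast]

theorem e3_intCast (i : Fin 3) (n : ℤ) : C.e3 i (n : C.F) = HahnSeries.C (n : Kb) := by
  rw [map_intCast, map_intCast]

theorem val_lt_one_of_redTo (i : Fin 3) {y : C.F} (hy : RedTo C.π (C.e3 i y) 0) :
    (C.O3 i).valuation y < 1 := gv_val_lt_one_of_redTo C.hπ (C.disc3 i) hy

theorem val_eq_one_of_redTo (i : Fin 3) {y : C.F} {z : LaurentSeries C.k}
    (hy : RedTo C.π (C.e3 i y) z) (hz : z ≠ 0) : (C.O3 i).valuation y = 1 :=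
  gv_val_eq_one_of_redTo C.hπ (C.disc3 i) hy hz

theorem mem_O3_of_redTo (i : Fin 3) {y : C.F} {z : LaurentSeries C.k}
    (hy : RedTo C.π (C.e3 i y) z) : y ∈ C.O3 i := hy.mem

/-! ### `ϖ 1` -/

section Odd

variable (h4 : 4 ∣ C.M)

/-- `ϖ 1 = 1 - h(τ)/h(q²τ)`. -/
def varpi1 : C.F := varpi0 C.A C.M C.q h4

theorem embF0_varpi1 :
    embF0 C.A (C.M * C.q * C.q) (C.varpi1 h4) = varpi C.M C.q h4 :=
  embF0_varpi0 C.A C.M C.q _

/-- the field `ϖ_lt 1`. -/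
theorem varpi1_lt : (C.O3 1).valuation (C.varpi1 h4) < 1 := by
  apply C.val_lt_one_of_redTo 1
  rw [e3_one_apply, embF0_varpi1]
  obtain ⟨u, hu, h⟩ := exists_s_varpi C.hπ C.sig2 C.ζ C.sig2_al C.sig2_be_be C.hζ
    C.val_one_sub_zeta h4
  rw [h]
  exact ((redTo_C_zero C.hπ C.val_one_sub_zeta).mul hu).congr rfl (zero_mul _)

theorem varpi1_pow_div :
    (C.O3 1).valuation (C.varpi1 h4 ^ (C.q - 1) / (C.q : C.F)) = 1 := by
  refine C.val_eq_one_of_redTo 1 (z := -(-(castLS C.k gS) ^ 2) ^ (C.q - 1)) ?_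
    (neg_ne_zero.2 (pow_ne_zero _ (neg_ne_zero.2 (pow_ne_zero _ castLS_gS_ne_zero))))
  rw [map_div₀, map_pow, e3_natCast, e3_one_apply, embF0_varpi1]
  exact redTo_s_varpi_pow C.hπ C.sig2 C.ζ C.sig2_al C.sig2_be_be C.hq C.hζ
    C.val_one_sub_zeta h4

theorem natCast_q_ne_zero : (C.q : C.F) ≠ 0 := by exact_mod_cast C.hq.ne_zero

theorem varpi1_pow_eq :
    (C.O3 1).valuation (C.q : C.F) = (C.O3 1).valuation (C.varpi1 h4) ^ (C.q - 1) := by
  have h := C.varpi1_pow_div h4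
  rw [map_div₀, map_pow] at h
  exact ((div_eq_one_iff_eq ((Valuation.ne_zero_iff _).2 C.natCast_q_ne_zero)).1 h).symm

/-- the field `ϖ_ram 1`. -/
theorem varpi1_ram :
    (C.O3 1).valuation (C.q : C.F) ≤ (C.O3 1).valuation (C.varpi1 h4) ^ eVec C.q 1 :=
  (C.varpi1_pow_eq h4).le

/-- the field `ϖ_indep 1 0`. -/
theorem varpi1_zero : (C.O3 0).valuation (C.varpi1 h4) = 1 := by
  refine C.val_eq_one_of_redTo 0 ?_ (castLS_varpiSer_ne_zero C.q C.hq.one_lt)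
  rw [e3_zero_apply, embF0_varpi1]
  exact redTo_coe_varpi C.M C.q _

/-- the field `ϖ_indep 1 2`. -/
theorem varpi1_two : (C.O3 2).valuation (C.varpi1 h4) = 1 := by
  refine C.val_eq_one_of_redTo 2 ?_ (castLS_varpiSerW_ne_zero C.q C.hq.one_lt)
  rw [e3_two_apply, embF0_varpi1]
  exact redTo_coe_w_varpi C.M C.q _ C.W2 C.W2_al_al C.W2_be_be

theorem varpi1_mem_O3 (i : Fin 3) : C.varpi1 h4 ∈ C.O3 i := by
  rw [← ValuationSubring.valuation_le_one_iff]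
  fin_cases i
  · exact (C.varpi1_zero h4).le
  · exact (C.varpi1_lt h4).le
  · exact (C.varpi1_two h4).le

/-! ### integrality -/

theorem embF0_jM : embF0 C.A C.M C.jM = jF C.M := embF0_jF0 C.A C.M 1 (one_dvd _)

theorem embF0_j_zero : embF0 C.A (C.M * C.q * C.q) (C.j 0) = aa0 C.M C.q (jF C.M) := by
  show embF0 C.A (C.M * C.q * C.q) (heckeAlphaBar C.K (C.M * C.q) C.q
    (heckeAlphaBar C.K C.M C.q C.jM)) = _
  rw [embF0_alpha, embF0_alpha, embF0_jM]; rfl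

theorem embF0_j_two : embF0 C.A (C.M * C.q * C.q) (C.j 2) = aa2 C.M C.q (jF C.M) := by
  show embF0 C.A (C.M * C.q * C.q) (heckeBetaBar C.K (C.M * C.q) C.q
    (heckeBetaBar C.K C.M C.q C.jM)) = _
  rw [embF0_beta, embF0_beta, embF0_jM]; rfl

theorem aa0_jF : aa0 C.M C.q (jF C.M) = jF (C.M * C.q * C.q) := by
  apply Subtype.ext
  rw [aa0_apply, coe_heckeAlphaBar, coe_heckeAlphaBar]
  rfl

theorem isIntegral_varpi1_j :
    IsIntegral (Algebra.adjoin C.K {C.j 0}) (C.varpi1 h4) := by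
  apply isIntegral_of_embF0
  rw [embF0_varpi1, embF0_j_zero, aa0_jF]
  exact isIntegral_varpi C.M C.q _

theorem isIntegral_varpi1_t :
    IsIntegral (Algebra.adjoin C.K {C.t}) (C.varpi1 h4) :=
  isIntegral_adjoin_trans
    (isIntegral_adjoin_pow_sub (C.j 0) (Nat.one_lt_pow (by norm_num) C.hq.one_lt))
    (C.isIntegral_varpi1_j h4)

/-- the field `ϖ_mem 1`. -/
theorem varpi1_mem {e f : Fin 3 → ℕ}
    (S : GaussSys C.K ((C.q : ℕ) : C.R) C.t C.O3 e f) : C.varpi1 h4 ∈ intCl C.R C.t :=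
  S.mem_intCl_of_isIntegral C.irr (C.varpi1_mem_O3 h4) (C.isIntegral_varpi1_t h4)

/-! ### `[C2]` -/

/-- the field `c2`, for `a₀ = ε a` (`ε = ± 1`). -/
theorem c2_of (hodd : C.q ≠ 2) (a₀ b₀ : C.F) (ε : ℤ) (hε : ε * ε = 1)
    (ha : embF0 C.A (C.M * C.q * C.q) a₀
      = algebraMap Kb _ (ε : Kb) * wt1Four.aF C.M C.q h4)
    (hb : embF0 C.A (C.M * C.q * C.q) b₀ = wt1Four.bF C.M C.q h4) :
    (C.O3 1).valuation
      (C.varpi1 h4 ^ (C.q - 1) * a₀ * b₀ / (C.q : C.F) * ((-ε : ℤ) : C.F) - 1) < 1 := by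
  apply C.val_lt_one_of_redTo 1
  obtain ⟨hb', ha'⟩ := wt1Four.sigma2_ab C.M C.q h4 C.hq C.hqM C.ζ C.hζ C.sig2
    C.sig2_const C.sig2_al C.sig2_be_be
  have h1 := redTo_c2 C.hπ C.sig2 C.ζ C.sig2_al C.sig2_be_be C.hq C.hζ C.val_one_sub_zeta
    h4 hodd hb' ha'
  rw [map_sub, map_one, map_mul, map_div₀, map_mul, map_mul, map_pow, e3_natCast, e3_intCast,
    e3_one_apply, e3_one_apply, e3_one_apply, embF0_varpi1, ha, hb, map_mul, sig2_const]
  have hεK : (ε : Kb) * ((-ε : ℤ) : Kb) = -1 := by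
    have : ((ε * ε : ℤ) : Kb) = 1 := by rw [hε]; simp
    push_cast at this ⊢
    linear_combination -this
  have h2 : C.sig2 (varpi C.M C.q h4) ^ (C.q - 1) *
        (HahnSeries.C (ε : Kb) * C.sig2 (wt1Four.aF C.M C.q h4)) *
        C.sig2 (wt1Four.bF C.M C.q h4) / HahnSeries.C (C.q : Kb) *
        HahnSeries.C ((-ε : ℤ) : Kb) - 1
      = -(C.sig2 (varpi C.M C.q h4) ^ (C.q - 1) *
        C.sig2 (wt1Four.aF C.M C.q h4) *
        C.sig2 (wt1Four.bF C.M C.q h4) / HahnSeries.C (C.q : Kb)) - 1 := by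
    have h3 : (HahnSeries.C (ε : Kb) : LaurentSeries Kb) * HahnSeries.C ((-ε : ℤ) : Kb) = -1 := by
      rw [← map_mul, hεK, map_neg, map_one]
    linear_combination (C.sig2 (varpi C.M C.q h4) ^ (C.q - 1) *
        C.sig2 (wt1Four.aF C.M C.q h4) *
        C.sig2 (wt1Four.bF C.M C.q h4) / HahnSeries.C (C.q : Kb)) * h3
  rw [h2]
  exact (h1.neg.sub redTo_one).congr rfl (by ring)

end Odd

/-! ### `ϖ_j = 1 - j₀ / j₂` : the hypothesis `hz` of `JTriple.cusp` -/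

theorem embF0_one_sub_div :
    embF0 C.A (C.M * C.q * C.q) (1 - C.j 0 / C.j 2) = varpiJ C.M C.q := by
  rw [map_sub, map_one, map_div₀, embF0_j_zero, embF0_j_two, varpiJ, div_eq_mul_inv]

/-- `z = (1 - j₀/j₂)^(q-1) / q` reduces to `- w_J^(q-1)`. -/
theorem redTo_zJ :
    RedTo C.π (C.e3 1 ((1 - C.j 0 / C.j 2) ^ (C.q - 1) / (C.q : C.F)))
      (-(castLS C.k wJS) ^ (C.q - 1)) := by
  rw [map_div₀, map_pow, e3_natCast, e3_one_apply, embF0_one_sub_div]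
  exact redTo_s_varpiJ_pow C.hπ C.sig2 C.ζ C.sig2_al C.sig2_be_be C.hq C.hζ C.val_one_sub_zeta

theorem algebraMap_q : algebraMap C.R C.F ((C.q : ℕ) : C.R) = (C.q : C.F) := map_natCast _ _

/-- the hypothesis `hz` of `JTriple.cusp`. -/
theorem hz : (C.O3 1).valuation
    ((1 - C.j 0 / C.j 2) ^ (C.q - 1) / algebraMap C.R C.F ((C.q : ℕ) : C.R)) = 1 := by
  rw [algebraMap_q]
  exact C.val_eq_one_of_redTo 1 C.redTo_zJ (neg_ne_zero.2 (pow_ne_zero _ castLS_wJS_ne_zero))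

theorem varpiJ_lt : (C.O3 1).valuation (1 - C.j 0 / C.j 2) < 1 := by
  apply C.val_lt_one_of_redTo 1
  rw [e3_one_apply, embF0_one_sub_div]
  obtain ⟨u, hu, h⟩ := exists_s_varpiJ C.hπ C.sig2 C.ζ C.sig2_al C.sig2_be_be C.hζ
    C.val_one_sub_zeta
  rw [h]
  exact ((redTo_C_zero C.hπ C.val_one_sub_zeta).mul hu).congr rfl (zero_mul _)

end Ctx

end Fermat.Agent.S36
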