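import Fermat.Agent.S36.Haupt.Level
import Fermat.Agent.S36.Mod.SysTop

/-!
# S36 / [CUSP-MOD] : the hypothesis `hres` of `JTriple.cusp`

`z = (1 - j₀/j₂)^(q-1)/q` lives at the level `q²`, where the residue degree of the middle component over
`k(jbar)` is one (`GaussSys.res_exact`): `s(j₀) z ≡ c(j₀)` with `s` primitive; `[TRUNC]` then gives the
normalised pair.
-/

set_option autoImplicit false
set_option linter.unusedSectionVars false

open ModularCurve Polynomial Fermat.Agent.S24 Fermat.Agent.S28 Fermat.Agent.RED.Gauss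

noncomputable section

namespace Fermat.Agent.S36

/-- residue degree one: every element of `O i` is congruent to a fraction in `t`. -/
theorem GaussSys.exists_frac_of_deg_one {R : Type*} [CommRing R] [IsDomain R]
    [IsDiscreteValuationRing R] {K : Type*} [Field K] [Algebra R K] [IsFractionRing R K]
    {F : Type*} [Field F] [CharZero F] [Algebra R F] [Algebra K F] [IsScalarTower R K F]
    {π : R} {t : F} {ι : Type*} [Fintype ι] {O : ι → ValuationSubring F} {e f : ι → ℕ}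
    (hπ : Irreducible π) (S : GaussSys K π t O e f) (i : ι) (hf : f i = 1) {y : F}
    (hy : y ∈ O i) :
    ∃ s c : R[X], ¬ (C π ∣ s) ∧ (O i).valuation (aeval t s * y - aeval t c) < 1 := by
  have : Unique (Fin (f i)) := by rw [hf]; infer_instance
  obtain ⟨s, c, hs, hv⟩ := S.res_exact hπ i (ω := fun _ => 1) (fun _ => (O i).one_mem)
    (by
      intro c hc k
      rw [Fintype.sum_unique, mul_one] at hc
      rw [Subsingleton.elim k default]
      by_contra hcon
      exact hc.ne ((S.gauss i).prim _ hcon)) hy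
  rw [Fintype.sum_unique, mul_one] at hv
  exact ⟨s, c default, hs, hv⟩

namespace Ctx

variable (C : Ctx)

theorem e3_one_const (c : C.K) :
    C.e3 1 (algebraMap C.K C.F c) = HahnSeries.C (algebraMap C.K Kb c) := by
  rw [e3_one_apply, embF0_algebraMap, sig2_const]

theorem redTo_j_zero : RedTo C.π (C.e3 1 (C.j 0)) (jqModC C.k) := by
  rw [e3_one_apply, embF0_j_zero, aa0_apply, sig2_al, coe_heckeAlphaBar]
  have h1 : ((jF C.M : FN C.M) : LaurentSeries Kb) = jqNModC Kb 1 := coe_jBar C.M 1 (one_dvd C.M)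
  rw [h1, jqNModC_one, ← coeffMap_jqModC (Int.castRingHom Kb)]
  exact (redTo_castLS (jqModC ℤ)).congr rfl (coeffMap_jqModC _)

/-- the reduction of `z`. -/
def zbar : LaurentSeries C.k := -(castLS C.k wJS) ^ (C.q - 1)

theorem zbar_eq : C.zbar = HahnSeries.ofPowerSeries ℤ C.k
    (-(wJ.map (Int.castRingHom C.k)) ^ (C.q - 1)) := by
  rw [zbar, castLS_wJS, map_neg, map_pow]

theorem zbar_coeff_neg (n : ℤ) (hn : n < 0) : C.zbar.coeff n = 0 := by
  rw [zbar_eq]; exact ofPowerSeries_coeff_of_neg _ hn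

theorem zbar_coeff_zero : C.zbar.coeff 0 ≠ 0 := by
  rw [zbar_eq]
  have := HahnSeries.ofPowerSeries_apply_coeff (Γ := ℤ)
    (-(wJ.map (Int.castRingHom C.k)) ^ (C.q - 1)) 0
  rw [Nat.cast_zero] at this
  rw [this, PowerSeries.coeff_zero_eq_constantCoeff_apply, map_neg, map_pow,
    ← PowerSeries.coeff_zero_eq_constantCoeff_apply, PowerSeries.coeff_map,
    PowerSeries.coeff_zero_eq_constantCoeff_apply, constantCoeff_wJ]
  simp

/-- `z` at the level `q²`. -/
def zOne : C.one.F := (1 - C.one.j 0 / C.one.j 2) ^ (C.q - 1) / (C.q : C.one.F)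

theorem lvl_zOne : C.lvl C.zOne = (1 - C.j 0 / C.j 2) ^ (C.q - 1) / (C.q : C.F) := by
  rw [zOne, map_div₀, map_pow, map_sub, map_one, map_div₀, lvl_j_zero, lvl_j_two, map_natCast]

theorem zOne_mem : C.zOne ∈ C.one.O3 1 := C.one.mem_O3_of_redTo 1 C.one.redTo_zJ

theorem lvl_aeval (p : C.R[X]) (x : C.one.F) : C.lvl (aeval x p) = aeval (C.lvl x) p := by
  have := Polynomial.aeval_algHom_apply (C.lvl.restrictScalars C.R) x p
  exact this.symm

theorem one_fj : C.one.fj 0 1 = 1 := by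
  have h : C.one.fj 0 1 = C.one.psi := rfl
  rw [h, psi]
  exact dedekindPsi_one

/-- the primitive relation at the level `q²`. -/
theorem exists_prim_rel_one : ∃ s c : C.one.R[X], ¬ (Polynomial.C ((C.one.q : ℕ) : C.one.R) ∣ s) ∧
    (C.one.O3 1).valuation (aeval (C.one.j 0) s * C.zOne - aeval (C.one.j 0) c) < 1 :=
  (C.one.sys_j 0).exists_frac_of_deg_one C.one.irr 1 C.one_fj C.zOne_mem

theorem lvl_rel (s c : C.R[X]) :
    C.lvl (aeval (C.one.j 0) s * C.zOne - aeval (C.one.j 0) c)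
      = aeval (C.j 0) s * ((1 - C.j 0 / C.j 2) ^ (C.q - 1) / (C.q : C.F)) - aeval (C.j 0) c := by
  rw [map_sub, map_mul, lvl_zOne, lvl_aeval, lvl_aeval, lvl_j_zero]

/-- the primitive relation at the level `M q²`. -/
theorem exists_prim_rel : ∃ s c : C.R[X], ¬ (Polynomial.C ((C.q : ℕ) : C.R) ∣ s) ∧
    (C.O3 1).valuation (aeval (C.j 0) s * ((1 - C.j 0 / C.j 2) ^ (C.q - 1) / (C.q : C.F))
      - aeval (C.j 0) c) < 1 := by
  obtain ⟨s, c, hs, hv⟩ := C.exists_prim_rel_one
  refine ⟨s, c, hs, ?_⟩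
  rw [← C.lvl_rel s c]
  exact (C.val_lvl_lt_one_iff _).2 hv

theorem isUnit_of_pi0_ne_zero (r : C.R) (hr : pi0 C.A r ≠ 0) : IsUnit r := by
  by_contra hu
  have h1 : r ∈ IsLocalRing.maximalIdeal C.R := (IsLocalRing.mem_maximalIdeal _).2 hu
  rw [C.irr.maximalIdeal_eq, Ideal.mem_span_singleton] at h1
  obtain ⟨r', rfl⟩ := h1
  apply hr
  rw [map_mul, pi0_natCast_eq_zero C.A C.hA, zero_mul]

/-- **the hypothesis `hres` of `JTriple.cusp`.** -/
theorem hres : ∃ (s c : C.R[X]) (d : ℕ), s.natDegree ≤ d ∧ c.natDegree ≤ d ∧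
    IsUnit (s.coeff d) ∧ IsUnit (c.coeff d) ∧ (C.O3 1).valuation (aeval (C.j 0) s *
      ((1 - C.j 0 / C.j 2) ^ (C.q - 1) / algebraMap C.R C.F ((C.q : ℕ) : C.R)) -
        aeval (C.j 0) c) < 1 := by
  rw [algebraMap_q]
  obtain ⟨s, c, hs, hv⟩ := C.exists_prim_rel
  exact gv_trunc C.hπ (C.disc3 1) (ρ := pi0 C.A)
    (hc_of_const C.A (C.e3 1) C.e3_one_const)
    (dvd_of_pi0_eq_zero C.A C.hA) (pi0_surjective C.A C.hA) C.isUnit_of_pi0_ne_zero
    C.redTo_j_zero C.redTo_zJ C.zbar_coeff_neg C.zbar_coeff_zero s c hs hv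

end Ctx

end Fermat.Agent.S36
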