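import Fermat.Agent.S36.Theta.Inst
import Fermat.Agent.S16.E2Level

/-!
# S36 / [HAUPT] : formal part

`h = (η(4τ)/η(τ))^8 = T ∏ (1-T^{4n})^8/(1-T^n)^8` (Hauptmodul of `X₀(4)`), `t = 1/h`.
`thD = X d/dX`.  Main result `thD_psi8` : `θ ψ - ψ = - ψ G²` for `ψ = T t`, i.e. `D t = - t G²`
(`G = θ² = G4ser`), from

* `[ETALOG]` `thD_etaProd : θ P = - P σ`, `P = ∏ (1 - X^n)`, `σ = ∑ σ₁(n) X^n`  (purely formal);
* `[JAC4]`  `3 G² = 3 + 24 ∑ (σ₁(n) - 4 σ₁(n/4)) X^n` (Jacobi's four squares theorem, proved by the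
  Sturm bound in `Haupt/Jac4.lean`; here it is a hypothesis).
-/

set_option autoImplicit false

open PowerSeries

noncomputable section

namespace Fermat.Agent.S36

/-- `θ = X d/dX` on `ℤ⟦X⟧`. -/
def thD (f : PowerSeries ℤ) : PowerSeries ℤ := X * d⁄dX ℤ f

theorem coeff_thD (f : PowerSeries ℤ) (n : ℕ) : coeff n (thD f) = n * coeff n f := by
  unfold thD
  cases n with
  | zero => simp
  | succ n =>
    rw [mul_comm, coeff_succ_mul_X, coeff_derivative]
    push_cast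
    ring

theorem thD_mul (f g : PowerSeries ℤ) : thD (f * g) = f * thD g + g * thD f := by
  unfold thD
  rw [Derivation.leibniz]
  simp only [smul_eq_mul]
  ring

theorem thD_pow (f : PowerSeries ℤ) (n : ℕ) : thD (f ^ (n + 1)) = C ((n : ℤ) + 1) * f ^ n * thD f := by
  unfold thD
  rw [derivative_pow]
  simp only [Nat.add_sub_cancel, map_add, map_one]
  push_cast
  have : (C (n : ℤ) : PowerSeries ℤ) = (n : PowerSeries ℤ) := by simp
  rw [this]
  ring

theorem thD_expand (d : ℕ) (hd : d ≠ 0) (f : PowerSeries ℤ) :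
    thD (f.expand d hd) = C (d : ℤ) * (thD f).expand d hd := by
  ext n
  rw [coeff_thD, coeff_C_mul, coeff_expand, coeff_expand]
  split_ifs with h
  · rw [coeff_thD]
    obtain ⟨k, rfl⟩ := h
    rw [Nat.mul_div_cancel_left _ (Nat.pos_of_ne_zero hd)]
    push_cast
    ring
  · simp

section EtaLog

open scoped PowerSeries.WithPiTopology
open Filter Topology

/-- `(n+1) X^(n+1) / (1 - X^(n+1))`. -/
def logTerm (n : ℕ) : PowerSeries ℤ :=
  PowerSeries.mk fun m => if (n + 1) ∣ m ∧ m ≠ 0 then ((n : ℤ) + 1) else 0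

theorem coeff_logTerm (n m : ℕ) :
    coeff m (logTerm n) = if (n + 1) ∣ m ∧ m ≠ 0 then ((n : ℤ) + 1) else 0 := by
  simp [logTerm]

theorem one_sub_mul_logTerm (n : ℕ) :
    (1 - X ^ (n + 1)) * logTerm n = C ((n : ℤ) + 1) * X ^ (n + 1) := by
  ext m
  rw [sub_mul, one_mul, map_sub, coeff_X_pow_mul', coeff_C_mul, coeff_X_pow, coeff_logTerm]
  by_cases h1 : n + 1 ≤ m
  · rw [if_pos h1, coeff_logTerm]
    obtain ⟨k, rfl⟩ := Nat.exists_eq_add_of_le h1
    rw [Nat.add_sub_cancel_left]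
    have e1 : (n + 1 ∣ n + 1 + k) ↔ (n + 1 ∣ k) := Nat.dvd_add_right (dvd_refl _)
    by_cases hk : k = 0
    · subst hk
      simp
    · have h2 : n + 1 + k ≠ n + 1 := by omega
      have h3 : n + 1 + k ≠ 0 := by omega
      simp only [e1, h2, hk, h3, ne_eq, not_false_eq_true, and_true, if_false, mul_zero, sub_self]
  · rw [if_neg h1]
    have h2 : m ≠ n + 1 := by omega
    have h3 : ¬ ((n + 1) ∣ m ∧ m ≠ 0) := by
      rintro ⟨h4, h5⟩
      exact h1 (Nat.le_of_dvd (Nat.pos_of_ne_zero h5) h4)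
    rw [if_neg h3, if_neg h2]
    simp

theorem thD_one_sub_X_pow (n : ℕ) :
    thD (1 - X ^ (n + 1)) = - ((1 - X ^ (n + 1)) * logTerm n) := by
  rw [one_sub_mul_logTerm]
  ext m
  rw [coeff_thD, map_sub, map_neg, coeff_C_mul, coeff_X_pow, coeff_one]
  by_cases h : m = n + 1
  · subst h
    simp
  · rw [if_neg h]
    by_cases h0 : m = 0
    · subst h0; simp
    · rw [if_neg h0]; simp

theorem thD_finprod (s : Finset ℕ) :
    thD (∏ n ∈ s, (1 - X ^ (n + 1))) =
      - ((∏ n ∈ s, (1 - X ^ (n + 1) : PowerSeries ℤ)) * ∑ n ∈ s, logTerm n) := by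
  classical
  induction s using Finset.induction_on with
  | empty =>
    simp only [Finset.prod_empty, Finset.sum_empty, mul_zero, neg_zero]
    ext m
    rw [coeff_thD, coeff_one]
    by_cases h0 : m = 0
    · subst h0; simp
    · rw [if_neg h0]; simp
  | insert a s ha ih =>
    rw [Finset.prod_insert ha, Finset.sum_insert ha, thD_mul, ih, thD_one_sub_X_pow]
    ring

theorem hasSum_logTerm : HasSum logTerm S16.sigmaZ := by
  rw [PowerSeries.WithPiTopology.hasSum_iff_hasSum_coeff]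
  intro m
  have h1 : ∀ n ∉ Finset.range m, coeff m (logTerm n) = 0 := by
    intro n hn
    rw [Finset.mem_range, not_lt] at hn
    rw [coeff_logTerm, if_neg]
    rintro ⟨h4, h5⟩
    have := Nat.le_of_dvd (Nat.pos_of_ne_zero h5) h4
    omega
  have h2 : HasSum (fun n => coeff m (logTerm n)) (∑ n ∈ Finset.range m, coeff m (logTerm n)) :=
    hasSum_sum_of_ne_finset_zero h1
  suffices h3 : coeff m S16.sigmaZ = ∑ n ∈ Finset.range m, coeff m (logTerm n) by
    rw [h3]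
    exact h2
  simp only [S16.sigmaZ, coeff_mk, coeff_logTerm]
  rw [Nat.divisors, Finset.sum_filter, Finset.sum_Ico_eq_sum_range]
  simp only [Nat.add_sub_cancel]
  refine Finset.sum_congr rfl fun n hn => ?_
  have hm : m ≠ 0 := by
    rintro rfl
    simp at hn
  rw [add_comm 1 n]
  simp only [hm, ne_eq, not_false_eq_true, and_true]
  push_cast
  rfl

theorem tendsto_thD {ι : Type*} {l : Filter ι} {f : ι → PowerSeries ℤ} {g : PowerSeries ℤ}
    (h : Tendsto f l (𝓝 g)) : Tendsto (fun i => thD (f i)) l (𝓝 (thD g)) := by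
  rw [PowerSeries.WithPiTopology.tendsto_iff_coeff_tendsto] at h ⊢
  intro d
  simp only [coeff_thD]
  exact (h d).const_mul _

/-- **[ETALOG]** the logarithmic derivative of Euler's product. -/
theorem thD_etaProd :
    thD ModularCurve.etaProd = - (ModularCurve.etaProd * S16.sigmaZ) := by
  have hP : HasProd (fun n : ℕ => (1 - X ^ (n + 1) : PowerSeries ℤ)) ModularCurve.etaProd :=
    (PowerSeries.WithPiTopology.multipliable_one_sub_X_pow ℤ).hasProd
  have h1 := tendsto_thD hP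
  have h2 : Tendsto (fun s : Finset ℕ => - ((∏ n ∈ s, (1 - X ^ (n + 1) : PowerSeries ℤ)) *
      ∑ n ∈ s, logTerm n)) atTop (𝓝 (- (ModularCurve.etaProd * S16.sigmaZ))) :=
    (Tendsto.mul hP hasSum_logTerm).neg
  simp only [thD_finprod] at h1
  exact tendsto_nhds_unique h1 h2

end EtaLog

/-- `T t = ∏ (1-T^n)^8/(1-T^{4n})^8`. -/
def psi8 : PowerSeries ℤ := eS 1 ^ 8 * (eS 4 ^ 8).invOfUnit 1

/-- `h / T = ∏ (1-T^{4n})^8/(1-T^n)^8`. -/
def psi8inv : PowerSeries ℤ := eS 4 ^ 8 * (eS 1 ^ 8).invOfUnit 1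

theorem eS_pow_mul_invOfUnit (d n : ℕ) : eS d ^ n * (eS d ^ n).invOfUnit 1 = 1 :=
  PowerSeries.mul_invOfUnit _ 1 (by rw [map_pow, constantCoeff_eS, one_pow]; rfl)

theorem psi8_mul_inv : psi8 * psi8inv = 1 := by
  unfold psi8 psi8inv
  calc eS 1 ^ 8 * (eS 4 ^ 8).invOfUnit 1 * (eS 4 ^ 8 * (eS 1 ^ 8).invOfUnit 1)
      = (eS 1 ^ 8 * (eS 1 ^ 8).invOfUnit 1) * (eS 4 ^ 8 * (eS 4 ^ 8).invOfUnit 1) := by ring
    _ = 1 := by rw [eS_pow_mul_invOfUnit, eS_pow_mul_invOfUnit, one_mul]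

theorem constantCoeff_psi8 : constantCoeff psi8 = 1 := by
  unfold psi8
  rw [map_mul, map_pow, constantCoeff_eS, one_pow, one_mul]
  exact constantCoeff_invOfUnit_one (by rw [map_pow, constantCoeff_eS, one_pow])

theorem constantCoeff_psi8inv : constantCoeff psi8inv = 1 := by
  unfold psi8inv
  rw [map_mul, map_pow, constantCoeff_eS, one_pow, one_mul]
  exact constantCoeff_invOfUnit_one (by rw [map_pow, constantCoeff_eS, one_pow])

theorem psV_eq_expand (d : ℕ) (hd : d ≠ 0) (f : PowerSeries ℤ) : S16.psV d f = f.expand d hd := by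
  ext n
  rw [S16.coeff_psV, coeff_expand]

theorem thD_eS (d : ℕ) (hd : d ≠ 0) :
    thD (eS d) = - (eS d * (C (d : ℤ) * S16.psV d S16.sigmaZ)) := by
  have h : eS d = ModularCurve.etaProd.expand d hd := by
    unfold eS
    rw [dif_pos hd]
  rw [h, thD_expand, thD_etaProd, map_neg, map_mul, psV_eq_expand d hd]
  ring

theorem thD_eS_pow (d : ℕ) (hd : d ≠ 0) (n : ℕ) :
    thD (eS d ^ (n + 1)) =
      - (eS d ^ (n + 1) * (C ((n : ℤ) + 1) * (C (d : ℤ) * S16.psV d S16.sigmaZ))) := by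
  rw [thD_pow, thD_eS d hd]
  ring

theorem psV_one (f : PowerSeries ℤ) : S16.psV 1 f = f := by
  ext n
  rw [S16.coeff_psV, if_pos (one_dvd n), Nat.div_one]

theorem thD_psi8_delta : thD psi8 = - (psi8 * (C 8 * S16.deltaZ 4)) := by
  have hB := eS_pow_mul_invOfUnit 4 8
  have hA : psi8 * eS 4 ^ 8 = eS 1 ^ 8 := by
    unfold psi8
    calc eS 1 ^ 8 * (eS 4 ^ 8).invOfUnit 1 * eS 4 ^ 8
        = eS 1 ^ 8 * (eS 4 ^ 8 * (eS 4 ^ 8).invOfUnit 1) := by ring
      _ = eS 1 ^ 8 := by rw [hB, mul_one]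
  have h1 := congrArg thD hA
  rw [thD_mul, thD_eS_pow 4 (by norm_num) 7, thD_eS_pow 1 (by norm_num) 7, psV_one, ← hA] at h1
  have h2 : eS 4 ^ 8 * thD psi8 = eS 4 ^ 8 * - (psi8 * (C 8 * S16.deltaZ 4)) := by
    have e8 : (C (((7 : ℕ) : ℤ) + 1) : PowerSeries ℤ) = C 8 := by norm_num
    have e4 : (C ((4 : ℕ) : ℤ) : PowerSeries ℤ) = C 4 := by norm_num
    have e1 : (C ((1 : ℕ) : ℤ) : PowerSeries ℤ) = 1 := by simp
    rw [e8, e4, e1] at h1
    unfold S16.deltaZ
    rw [e4]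
    linear_combination h1
  have h3 := congrArg (fun u => (eS 4 ^ 8).invOfUnit 1 * u) h2
  simp only [← mul_assoc] at h3
  rw [mul_comm ((eS 4 ^ 8).invOfUnit 1) (eS 4 ^ 8), hB, one_mul, one_mul] at h3
  rw [h3]
  ring

/-- `D t = - t G²` in terms of `ψ = T t`. -/
theorem thD_psi8 (hJ : C 3 * G4ser ^ 2 = S16.eisZ 4) : thD psi8 - psi8 = - (psi8 * G4ser ^ 2) := by
  rw [S16.eisZ_eq] at hJ
  have h1 : G4ser ^ 2 = 1 + C 8 * S16.deltaZ 4 := by
    have h3 : (C 3 : PowerSeries ℤ) ≠ 0 := by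
      intro h
      have := congrArg (constantCoeff (R := ℤ)) h
      rw [constantCoeff_C, map_zero] at this
      omega
    apply mul_left_cancel₀ h3
    rw [hJ]
    have e3 : (C (((4 : ℕ) : ℤ) - 1) : PowerSeries ℤ) = C 3 := by norm_num
    have e24 : (C 24 : PowerSeries ℤ) = C 3 * C 8 := by rw [← map_mul]; norm_num
    rw [e3, e24]
    ring
  rw [thD_psi8_delta, h1]
  ring

end Fermat.Agent.S36
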