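import Fermat.Agent.RED.QEP0

/-!
# S36 / [HAUPT] : `[HOLINT]` an element of `F_N` which is holomorphic on `ℍ` is integral over `Kb[j]`

Proof.  `∏_x (X - f ∘ γ_x)` has coefficients in `ℂ[j]` (`RED.charpoly_coeff_of_mem_RN`) and `Θ f` is a
root (`x` = the trivial coset).  `S24.ThetaMer_relation` turns this into a relation between Laurent
series over `ℂ`; apply coefficientwise a `Kb`-linear retraction `λ : ℂ → Kb` of `iotaK`
(`relation_retract`): the relation becomes a monic relation over `Kb[j]`.
-/

set_option autoImplicit false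

open ModularCurve Fermat.Agent.S24 Polynomial CongruenceSubgroup
open scoped MatrixGroups

noncomputable section

namespace Fermat.Agent.S36

/-- **[RETRACT]** (formal).  A relation with coefficients in `ℂ[J]` between series with coefficients in
`K` can be retracted to `K[J]`; a coefficient polynomial equal to `1` stays `1`. -/
theorem relation_retract {K : Type*} [Field K] (ι : K →+* ℂ) (J : LaurentSeries K) {m : ℕ}
    (p : Fin m → ℂ[X]) (y : Fin m → LaurentSeries K)
    (h : ∑ i, aeval (coeffMap ι J) (p i) * coeffMap ι (y i) = 0) :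
    ∃ P : Fin m → K[X], (∀ i, p i = 1 → P i = 1) ∧ ∑ i, aeval J (P i) * y i = 0 := by
  classical
  let _ : Algebra K ℂ := ι.toAlgebra
  obtain ⟨lam, hlam⟩ := LinearMap.exists_leftInverse_of_injective (Algebra.linearMap K ℂ)
    (LinearMap.ker_eq_bot.mpr (algebraMap K ℂ).injective)
  have hlam1 : ∀ z : K, lam (ι z) = z := fun z => LinearMap.congr_fun hlam z
  have hlam2 : ∀ (c : ℂ) (z : K), lam (c * ι z) = lam c * z := by
    intro c z
    have : c * ι z = z • c := by rw [Algebra.smul_def, mul_comm]; rfl
    rw [this, map_smul, smul_eq_mul, mul_comm]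
  set D : ℕ := (Finset.univ.sup fun i => (p i).natDegree) + 1 with hD
  have hdeg : ∀ i, (p i).natDegree < D := fun i =>
    Nat.lt_succ_of_le (Finset.le_sup (f := fun i => (p i).natDegree) (Finset.mem_univ i))
  refine ⟨fun i => ∑ a ∈ Finset.range D, monomial a (lam ((p i).coeff a)), ?_, ?_⟩
  · intro i hi
    simp only [hi]
    rw [Finset.sum_eq_single 0]
    · have : lam 1 = 1 := by simpa using hlam1 1
      simp [this]
    · intro a _ ha
      simp [coeff_one, ha]
    · intro h0
      exact absurd (Finset.mem_range.mpr (Nat.succ_pos _)) h0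
  · ext k
    have hk := congrArg (fun x : LaurentSeries ℂ => lam (x.coeff k)) h
    have e1 : ∀ i, aeval (coeffMap ι J) (p i) * coeffMap ι (y i) =
        ∑ a ∈ Finset.range D, (p i).coeff a • coeffMap ι (J ^ a * y i) := by
      intro i
      rw [aeval_eq_sum_range' (hdeg i), Finset.sum_mul]
      refine Finset.sum_congr rfl fun a _ => ?_
      rw [Algebra.smul_def, mul_assoc, algebraMap_mul_eq_smul, map_mul, map_pow]
    have e2 : ∀ i, aeval J (∑ a ∈ Finset.range D, monomial a (lam ((p i).coeff a))) * y i =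
        ∑ a ∈ Finset.range D, lam ((p i).coeff a) • (J ^ a * y i) := by
      intro i
      rw [map_sum, Finset.sum_mul]
      refine Finset.sum_congr rfl fun a _ => ?_
      rw [aeval_monomial, mul_assoc, algebraMap_mul_eq_smul]
    have e3 : ∀ (w : LaurentSeries K), (coeffMap ι w).coeff k = ι (w.coeff k) := fun w => rfl
    rw [Finset.sum_congr rfl fun i _ => e2 i]
    simp only [e1, HahnSeries.coeff_sum, HahnSeries.coeff_smul, map_sum, e3, smul_eq_mul, hlam2,
      HahnSeries.coeff_zero, map_zero] at hk ⊢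
    exact hk

/-- a monic relation with coefficients in a subalgebra gives integrality. -/
theorem isIntegral_of_fin_relation {R F : Type*} [CommRing R] [CommRing F] [Algebra R F]
    (A : Subalgebra R F) (f : F) (n : ℕ) (a : Fin (n + 1) → F) (ha : ∀ i, a i ∈ A)
    (hlast : a (Fin.last n) = 1) (h : ∑ i, a i * f ^ (i : ℕ) = 0) : IsIntegral A f := by
  refine ⟨X ^ n + ∑ i : Fin n, C (⟨a i.castSucc, ha _⟩ : A) * X ^ (i : ℕ),
    monic_X_pow_add (degree_sum_fin_lt _), ?_⟩
  rw [Fin.sum_univ_castSucc, hlast, one_mul, Fin.val_last] at h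
  rw [eval₂_add, eval₂_pow, eval₂_X, eval₂_finsetSum, add_comm, ← h]
  congr 1
  refine Finset.sum_congr rfl fun i _ => ?_
  rw [eval₂_mul, eval₂_C, eval₂_pow, eval₂_X]
  rfl

/-- **[HOLINT]** -/
theorem isIntegral_of_mem_RN (N : ℕ) [NeZero N] (f : FN N) (h : Hol) (hh : h ∈ CPAlt.RN N)
    (hf : ThetaMer N f = algebraMap Hol Mer h) :
    IsIntegral (Algebra.adjoin Kb {jF N}) f := by
  classical
  set Q : Mer[X] := ∏ x : XN N, (X - C (actMer (Quotient.out x) (algebraMap Hol Mer h))) with hQ
  set n : ℕ := Fintype.card (XN N) with hn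
  have hmonic : Q.Monic := monic_prod_of_monic _ _ fun x _ => monic_X_sub_C _
  have hdeg : Q.natDegree = n := by
    rw [hQ, natDegree_prod_of_monic _ _ fun x _ => monic_X_sub_C _]
    simp [hn]
  have hroot : Q.eval (ThetaMer N f) = 0 := by
    rw [hQ, eval_prod]
    refine Finset.prod_eq_zero (Finset.mem_univ ((1 : SL(2, ℤ)) : XN N)) ?_
    obtain ⟨γ, hγ⟩ := QuotientGroup.mk_out_eq_mul (Gamma0 N) (1 : SL(2, ℤ))
    rw [eval_sub, eval_X, eval_C, hf, actMer_algebraMap, hγ, one_mul, hh.1 γ γ.2, sub_self]
  choose p hp using fun i => RED.charpoly_coeff_of_mem_RN N hh i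
  let p' : Fin (n + 1) → ℂ[X] := fun i => if i = Fin.last n then 1 else p i
  have hp' : ∀ i : Fin (n + 1), Q.coeff i = aeval (ThetaMer N (jF N)) (p' i) := by
    intro i
    by_cases hi : i = Fin.last n
    · simp only [p', hi, if_true, Fin.val_last, map_one]
      rw [← hdeg]
      exact hmonic.coeff_natDegree
    · simp only [p', hi, if_false]
      rw [ThetaMer_jF]
      exact hp i
  have hrel : ∑ i : Fin (n + 1), aeval (ThetaMer N (jF N)) (p' i) * ThetaMer N (f ^ (i : ℕ)) = 0 := by
    rw [← hroot, eval_eq_sum_range, hdeg, Finset.sum_range]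
    refine Finset.sum_congr rfl fun i _ => ?_
    rw [hp', map_pow]
  have h2 := ThetaMer_relation N (n + 1) p' (fun i => f ^ (i : ℕ)) hrel
  obtain ⟨P, hP1, hP⟩ := relation_retract iotaK.toRingHom _ p' _ h2
  refine isIntegral_of_fin_relation (Algebra.adjoin Kb {jF N}) f n (fun i => aeval (jF N) (P i))
    (fun i => ?_) ?_ ?_
  · rw [Algebra.adjoin_singleton_eq_range_aeval]
    exact ⟨P i, rfl⟩
  · show aeval (jF N) (P (Fin.last n)) = 1
    rw [hP1 _ (by simp [p']), map_one]
  · have hinj : Function.Injective (modularFunctionFieldBar N).val :=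
      (modularFunctionFieldBar N).val.injective
    apply hinj
    rw [map_zero, ← hP, map_sum]
    refine Finset.sum_congr rfl fun i _ => ?_
    rw [map_mul, ← aeval_algHom_apply]

end Fermat.Agent.S36
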