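import Fermat.Agent.S36.Theta.Inst
import Fermat.Agent.S16.E2Level
import Fermat.Agent.S24.JAnalytic

/-!
# S36 / [HAUPT] : `[JAC4]`  `θ⁴ = 1 + 8 ∑ (σ₁(n) - 4 σ₁(n/4)) qⁿ` in eta-quotient form

`G4 = η(2τ)^10/(η(τ)η(4τ))^4`.  `G4²` is a modular form of weight `2` on `Γ₀(4)`:
* invariance: `G4_smul` (`χ² = 1`);
* holomorphy: `mdiff_ofDisc diffOn_phi4`, `G4_eq_phi4`;
* boundedness at the cusps: `(G4² ∣[2] γ)^12 = Δ² (W 2 ∘ γ)^10 (W 4 ∘ γ)^(-4)` and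
  `W d (γ τ) = e^(-12) Δ((aτ+b)/e)/Δ(τ)`, `a = gcd(d, c)`, `a e = d` (`S28.Unit.exists_tri`),
  `Δ(z)/q(z) → 1` (`S24.discriminant_div_q_tendsto`), so the absolute value is
  `~ const * exp(-2π y (-4 + 5 a₂² - a₄²))`, `(a₂, a₄) ∈ {(1,1), (2,2), (2,4)}`.
Then Sturm (`S16.IsQ.eq_zero_of_sturm`, index `6`, bound `1`) against `S16.isQ_eisZ 4`.
-/

set_option autoImplicit false

open PowerSeries CongruenceSubgroup UpperHalfPlane ModularForm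
open scoped MatrixGroups Manifold

noncomputable section

namespace Fermat.Agent.S36

/-- asymptotics of `Δ(dγτ)/Δ(γτ)` at `i∞`. -/
theorem W_smul_asymp (d : ℕ) [NeZero d] (g : SL(2, ℤ)) :
    ∃ (a e : ℕ) (_ : NeZero a) (_ : NeZero e) (b : ℤ), a * e = d ∧ a = Int.gcd d (g 1 0) ∧
      Filter.Tendsto (fun τ : ℍ => S28.Unit.W d (g • τ) * Function.Periodic.qParam 1 τ /
        Function.Periodic.qParam 1 (S28.tri a e b τ)) atImInfty (nhds (((e : ℂ)⁻¹) ^ 12)) := by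
  obtain ⟨a, e, ia, ie, b, hae, hag, h⟩ := S28.Unit.exists_tri d g
  refine ⟨a, e, ia, ie, b, hae, hag, ?_⟩
  have t1 := S24.discriminant_div_q_tendsto
  have t2 := t1.comp (S28.tendsto_tri a e b)
  have t3 := ((tendsto_const_nhds (x := ((e : ℂ)⁻¹) ^ 12)).mul t2).div t1 one_ne_zero
  rw [mul_one, div_one] at t3
  refine t3.congr fun τ => ?_
  have h1 := discriminant_ne_zero τ
  have h2 : Function.Periodic.qParam 1 (τ : ℂ) ≠ 0 := Function.Periodic.qParam_ne_zero _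
  have h3 : Function.Periodic.qParam 1 ((S28.tri a e b τ : ℍ) : ℂ) ≠ 0 :=
    Function.Periodic.qParam_ne_zero _
  have h4 : S28.Unit.W d (g • τ) = ((e : ℂ)⁻¹) ^ 12 * discriminant (S28.tri a e b τ) /
      discriminant τ := h τ
  rw [h4]
  simp only [Function.comp_apply, Pi.div_apply]
  field_simp

theorem j4_pow (τ : ℍ) :
    G4 τ ^ 12 * S28.Unit.W 4 τ ^ 2 = discriminant τ * S28.Unit.W 2 τ ^ 5 := by
  rw [W_eq_eta 2 (by norm_num), W_eq_eta 4 (by norm_num), discriminant_eq_eta]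
  have n1 := eta_ne_zero' τ.im_pos
  have n2 := eta_ne_zero' (im_two_mul_pos τ.im_pos)
  have n4 := eta_ne_zero' (im_four_mul_pos τ.im_pos)
  simp only [G4]
  push_cast
  rw [mul_comm (4 : ℂ) (τ : ℂ), mul_comm (2 : ℂ) (τ : ℂ)] at *
  field_simp

theorem j4_W_ne_zero (d : ℕ) (τ : ℍ) : S28.Unit.W d τ ≠ 0 :=
  div_ne_zero (discriminant_ne_zero _) (discriminant_ne_zero _)

theorem j4_slash_pow (γ : SL(2, ℤ)) (τ : ℍ) :
    (((fun τ : ℍ => G4 τ ^ 2) ∣[(2 : ℤ)] γ) τ) ^ 12 * S28.Unit.W 4 (γ • τ) ^ 4 =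
      discriminant τ ^ 2 * S28.Unit.W 2 (γ • τ) ^ 10 := by
  rw [ModularForm.SL_slash_apply]
  have h1 := j4_pow (γ • τ)
  have h2 := Common.JPoly.discriminant_smul γ τ
  have hd : denom γ τ ≠ 0 := denom_ne_zero _ τ
  have h5 : (denom γ τ) ^ (12 : ℤ) = (denom γ τ) ^ 12 := by norm_cast
  rw [h5] at h2
  rw [h2] at h1
  have h6 : (denom γ τ) ^ (-(2 : ℤ)) = ((denom γ τ) ^ 2)⁻¹ := by
    rw [zpow_neg]; norm_cast
  rw [h6]
  have : (G4 ((γ • τ : ℍ) : ℂ) ^ 2 * ((denom γ τ) ^ 2)⁻¹) ^ 12 * S28.Unit.W 4 (γ • τ) ^ 4 =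
      (G4 ((γ • τ : ℍ) : ℂ) ^ 12 * S28.Unit.W 4 (γ • τ) ^ 2) ^ 2 * ((denom γ τ) ^ 24)⁻¹ := by
    ring
  rw [this, h1]
  field_simp

theorem j4_norm_q (τ : ℍ) :
    ‖Function.Periodic.qParam 1 (τ : ℂ)‖ = Real.exp (-2 * Real.pi * τ.im) := by
  rw [Function.Periodic.norm_qParam]
  simp

theorem j4_norm_q_tri (a e : ℕ) [NeZero a] [NeZero e] (b : ℤ) (τ : ℍ) :
    ‖Function.Periodic.qParam 1 ((S28.tri a e b τ : ℍ) : ℂ)‖ =
      Real.exp (-2 * Real.pi * ((a : ℝ) / e * τ.im)) := by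
  rw [j4_norm_q, S28.im_tri]

theorem j4_cases {c : ℤ} {a₂ e₂ a₄ e₄ : ℕ} (h2 : a₂ * e₂ = 2) (h4 : a₄ * e₄ = 4)
    (g2 : a₂ = Int.gcd (2 : ℕ) c) (g4 : a₄ = Int.gcd (4 : ℕ) c) :
    (a₂ = 1 ∧ e₂ = 2 ∧ a₄ = 1 ∧ e₄ = 4) ∨ (a₂ = 2 ∧ e₂ = 1 ∧ a₄ = 2 ∧ e₄ = 2) ∨
      (a₂ = 2 ∧ e₂ = 1 ∧ a₄ = 4 ∧ e₄ = 1) := by
  have h : a₂ = Nat.gcd 2 a₄ := by
    rw [g2, g4, Int.gcd, Int.gcd, ← Nat.gcd_assoc]
    rfl
  have hle : a₄ ≤ 4 := Nat.le_of_dvd (by norm_num) ⟨e₄, h4.symm⟩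
  interval_cases a₄
  · omega
  · left
    have : a₂ = 1 := by rw [h]; rfl
    subst this
    omega
  · right; left
    have : a₂ = 2 := by rw [h]; rfl
    subst this
    omega
  · omega
  · right; right
    have : a₂ = 2 := by rw [h]; rfl
    subst this
    omega


theorem j4_exp_le {a₂ e₂ a₄ e₄ : ℕ}
    (h : (a₂ = 1 ∧ e₂ = 2 ∧ a₄ = 1 ∧ e₄ = 4) ∨ (a₂ = 2 ∧ e₂ = 1 ∧ a₄ = 2 ∧ e₄ = 2) ∨
      (a₂ = 2 ∧ e₂ = 1 ∧ a₄ = 4 ∧ e₄ = 1)) {y : ℝ} (hy : 0 < y) :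
    Real.exp (-2 * Real.pi * ((a₂ : ℝ) / e₂ * y)) ^ 10 ≤
      Real.exp (-2 * Real.pi * y) ^ 4 * Real.exp (-2 * Real.pi * ((a₄ : ℝ) / e₄ * y)) ^ 4 := by
  rw [← Real.exp_nat_mul, ← Real.exp_nat_mul, ← Real.exp_nat_mul, ← Real.exp_add,
    Real.exp_le_exp]
  have hp : 0 < Real.pi * y := mul_pos Real.pi_pos hy
  rcases h with ⟨rfl, rfl, rfl, rfl⟩ | ⟨rfl, rfl, rfl, rfl⟩ | ⟨rfl, rfl, rfl, rfl⟩ <;>
    push_cast <;> nlinarith

/-- `G4² ∣[2] γ` is bounded at `i∞` for every `γ ∈ SL(2,ℤ)`. -/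
theorem isBounded_G4sq_slash (γ : SL(2, ℤ)) :
    IsBoundedAtImInfty ((fun τ : ℍ => G4 τ ^ 2) ∣[(2 : ℤ)] γ) := by
  obtain ⟨a₂, e₂, ia₂, ie₂, b₂, h2, g2, t2⟩ := W_smul_asymp 2 γ
  obtain ⟨a₄, e₄, ia₄, ie₄, b₄, h4, g4, t4⟩ := W_smul_asymp 4 γ
  have hc := j4_cases h2 h4 g2 g4
  have t1 := S24.discriminant_div_q_tendsto
  have he₄ : (((e₄ : ℂ)⁻¹) ^ 12) ^ 4 ≠ 0 :=
    pow_ne_zero _ (pow_ne_zero _ (inv_ne_zero (by exact_mod_cast NeZero.ne e₄)))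
  have tF := ((t1.pow 2).mul (t2.pow 10)).div (t4.pow 4) he₄
  have hev := tF.norm.eventually (Iio_mem_nhds (lt_add_one _))
  set C : ℝ := ‖1 ^ 2 * (((e₂ : ℂ)⁻¹) ^ 12) ^ 10 / (((e₄ : ℂ)⁻¹) ^ 12) ^ 4‖ + 1 with hC
  have hC1 : 1 ≤ C := le_add_of_nonneg_left (norm_nonneg _)
  refine Asymptotics.IsBigO.of_bound C ?_
  filter_upwards [hev] with τ hτ
  simp only [Pi.one_apply, norm_one, mul_one]
  set f := ((fun τ : ℍ => G4 τ ^ 2) ∣[(2 : ℤ)] γ) τ with hf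
  set q := Function.Periodic.qParam 1 (τ : ℂ) with hq
  set q₂ := Function.Periodic.qParam 1 ((S28.tri a₂ e₂ b₂ τ : ℍ) : ℂ) with hq₂
  set q₄ := Function.Periodic.qParam 1 ((S28.tri a₄ e₄ b₄ τ : ℍ) : ℂ) with hq₄
  have n0 : q ≠ 0 := Function.Periodic.qParam_ne_zero _
  have n2 : q₂ ≠ 0 := Function.Periodic.qParam_ne_zero _
  have n4 : q₄ ≠ 0 := Function.Periodic.qParam_ne_zero _
  have w4 := j4_W_ne_zero 4 (γ • τ)
  have key := j4_slash_pow γ τ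
  rw [← hf] at key
  have e1 : f ^ 12 = ((discriminant τ / q) ^ 2 * (S28.Unit.W 2 (γ • τ) * q / q₂) ^ 10 /
      (S28.Unit.W 4 (γ • τ) * q / q₄) ^ 4) * (q₂ ^ 10 / (q ^ 4 * q₄ ^ 4)) := by
    have : f ^ 12 = discriminant τ ^ 2 * S28.Unit.W 2 (γ • τ) ^ 10 / S28.Unit.W 4 (γ • τ) ^ 4 := by
      rw [← key]; field_simp
    rw [this]
    field_simp
  have e2 : ‖q₂ ^ 10 / (q ^ 4 * q₄ ^ 4)‖ ≤ 1 := by
    rw [norm_div, norm_mul, norm_pow, norm_pow, norm_pow, hq, hq₂, hq₄, j4_norm_q_tri,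
      j4_norm_q_tri, j4_norm_q]
    exact div_le_one_of_le₀ (j4_exp_le hc τ.im_pos) (by positivity)
  have e3 : ‖f‖ ^ 12 ≤ C := by
    rw [← norm_pow, e1, norm_mul]
    calc _ ≤ C * 1 := mul_le_mul (le_of_lt hτ) e2 (norm_nonneg _) (by linarith)
      _ = C := mul_one C
  by_contra hcon
  rw [not_le] at hcon
  have h1 : 1 < ‖f‖ := lt_of_le_of_lt hC1 hcon
  have h2 : ‖f‖ ≤ ‖f‖ ^ 12 := le_self_pow₀ h1.le (by norm_num)
  linarith

theorem j4_prod_aux (t : Finset ℕ) (ht : 0 ∉ t) :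
    constantCoeff (∏ n ∈ t, (1 - X ^ (n + 1) : PowerSeries ℤ)) = 1 ∧
      coeff 1 (∏ n ∈ t, (1 - X ^ (n + 1) : PowerSeries ℤ)) = 0 := by
  classical
  induction t using Finset.induction_on with
  | empty => simp
  | insert a s ha ih =>
    have ha0 : a ≠ 0 := fun h => ht (h ▸ Finset.mem_insert_self a s)
    obtain ⟨i1, i2⟩ := ih (fun h => ht (Finset.mem_insert_of_mem h))
    rw [Finset.prod_insert ha]
    have c0 : constantCoeff (1 - X ^ (a + 1) : PowerSeries ℤ) = 1 := by simp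
    have c1 : coeff 1 (1 - X ^ (a + 1) : PowerSeries ℤ) = 0 := by
      rw [map_sub, coeff_X_pow, if_neg (by omega), coeff_one, if_neg (by omega), sub_zero]
    refine ⟨by rw [map_mul, c0, i1, one_mul], ?_⟩
    rw [coeff_one_mul, c0, c1, i1, i2]
    simp

open scoped PowerSeries.WithPiTopology in
theorem coeff_one_etaProd : coeff 1 ModularCurve.etaProd = -1 := by
  classical
  have hp : HasProd (fun n : ℕ => (1 - PowerSeries.X ^ (n + 1) : PowerSeries ℤ))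
      ModularCurve.etaProd := (PowerSeries.WithPiTopology.multipliable_one_sub_X_pow ℤ).hasProd
  have hc := ((PowerSeries.WithPiTopology.continuous_coeff ℤ 1).tendsto _).comp hp
  have he : ∀ᶠ s : Finset ℕ in Filter.atTop,
      coeff 1 (∏ n ∈ s, (1 - X ^ (n + 1) : PowerSeries ℤ)) = -1 := by
    filter_upwards [Filter.eventually_ge_atTop ({0} : Finset ℕ)] with s hs
    have h0 : 0 ∈ s := hs (Finset.mem_singleton_self 0)
    obtain ⟨i1, i2⟩ := j4_prod_aux (s.erase 0) (Finset.notMem_erase 0 s)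
    rw [← Finset.mul_prod_erase s _ h0, coeff_one_mul, i1, i2]
    simp [coeff_X, coeff_one]
  have h2 : Filter.Tendsto (fun s : Finset ℕ =>
      coeff 1 (∏ n ∈ s, (1 - X ^ (n + 1) : PowerSeries ℤ))) Filter.atTop (nhds (-1)) :=
    Filter.Tendsto.congr' (Filter.EventuallyEq.symm he) tendsto_const_nhds
  exact tendsto_nhds_unique hc h2

theorem j4_coeff_one_eS_one : coeff 1 (eS 1) = -1 := by
  rw [eS, dif_pos one_ne_zero, coeff_expand]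
  simp [coeff_one_etaProd]

theorem j4_coeff_one_eS {d : ℕ} (hd : 2 ≤ d) : coeff 1 (eS d) = 0 := by
  rw [eS, dif_pos (by omega), coeff_expand, if_neg]
  intro h
  have := Nat.le_of_dvd one_pos h
  omega

theorem coeff_one_G4ser : coeff 1 G4ser = 4 := by
  have hc : constantCoeff (eS 1 ^ 4 * eS 4 ^ 4) = 1 := by simp [constantCoeff_eS]
  have h1 : coeff 1 (eS 1 ^ 4 * eS 4 ^ 4) = -4 := by
    rw [coeff_one_mul, coeff_one_pow, coeff_one_pow, j4_coeff_one_eS_one,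
      j4_coeff_one_eS (by norm_num)]
    simp [constantCoeff_eS]
  have h2 := congrArg (coeff 1) (PowerSeries.mul_invOfUnit (eS 1 ^ 4 * eS 4 ^ 4) 1 (by rw [hc]; rfl))
  rw [coeff_one_mul, h1, hc, constantCoeff_invOfUnit_one hc, coeff_one, if_neg one_ne_zero] at h2
  rw [G4ser, coeff_one_mul, coeff_one_pow, j4_coeff_one_eS (by norm_num),
    constantCoeff_invOfUnit_one hc, map_pow, constantCoeff_eS]
  linarith

theorem j4_eq_ofDisc : (fun τ : ℍ => G4 τ ^ 2) = ofDisc (phi4 ^ 2) := by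
  funext τ
  rw [ofDisc, Pi.pow_apply, G4_eq_phi4]

theorem j4_slash_eq (γ : SL(2, ℤ)) (hγ : γ ∈ Gamma0 4) :
    (fun τ : ℍ => G4 τ ^ 2) ∣[(2 : ℤ)] γ = fun τ : ℍ => G4 τ ^ 2 := by
  have h4 : (4 : ℤ) ∣ γ 1 0 := by
    rw [Gamma0_mem] at hγ
    exact_mod_cast (ZMod.intCast_zmod_eq_zero_iff_dvd _ _).mp hγ
  funext τ
  rw [ModularForm.SL_slash_apply, G4_smul γ h4 τ]
  have hd : denom γ τ = cd γ τ := by
    rw [ModularGroup.denom_apply]; rfl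
  have hne := cd_ne_zero γ τ
  have hchi : ((chi4 (γ 1 1) : ℤ) : ℂ) ^ 2 = 1 := by
    have := chi4_sq (γ 1 1)
    rw [sq]
    exact_mod_cast this
  have h6 : (cd γ τ) ^ (-(2 : ℤ)) = ((cd γ τ) ^ 2)⁻¹ := by
    rw [zpow_neg]; norm_cast
  rw [hd, h6, mul_pow, mul_pow, hchi]
  field_simp

theorem j4_mdiff : MDiff (fun τ : ℍ => G4 τ ^ 2) := by
  rw [j4_eq_ofDisc]
  exact mdiff_ofDisc (diffOn_phi4.pow 2)

theorem j4_psi : ModularCurve.dedekindPsi 4 = 6 := by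
  decide +kernel

/-- `G4²` as a modular form. -/
def G4sqForm : ModularForm (Gamma0 4) 2 where
  toFun := fun τ : ℍ => G4 τ ^ 2
  slash_action_eq' := by
    rintro _ ⟨γ, hγ, rfl⟩
    exact j4_slash_eq γ hγ
  holo' := j4_mdiff
  bdd_at_cusps' := by
    intro c hc
    rw [OnePoint.isBoundedAt_iff_forall_SL2Z
      ((Subgroup.IsArithmetic.isCusp_iff_isCusp_SL2Z _).mp hc)]
    intro γ _
    exact isBounded_G4sq_slash γ

theorem qExpansion_G4sqForm : qExpansion 1 G4sqForm = S16.toC (G4ser ^ 2) := by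
  have h : (⇑G4sqForm : ℍ → ℂ) = ofDisc (phi4 ^ 2) := j4_eq_ofDisc
  rw [h, qExpansion_ofDisc (continuousAt_of_diffOn (diffOn_phi4.pow 2)),
    S24.tay_pow (analyticAt_of_diffOn diffOn_phi4), tay_phi4, map_pow]

theorem isQ_G4sq : S16.IsQ 4 2 (G4ser ^ 2) := ⟨G4sqForm, qExpansion_G4sqForm⟩

/-- **[JAC4]** -/
theorem jac4 : C 3 * G4ser ^ 2 = S16.eisZ 4 := by
  have h : S16.IsQ 4 2 (C 3 * G4ser ^ 2 - S16.eisZ 4) := (isQ_G4sq.C_mul 3).sub (S16.isQ_eisZ 4)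
  have hidx : (Gamma0 4).index = 6 := by
    rw [S20.P1.index_Gamma0, j4_psi]
  refine sub_eq_zero.mp (h.eq_zero_of_sturm fun n hn => ?_)
  rw [hidx] at hn
  have hn1 : n ≤ 1 := by
    have : ((2 : ℤ) * ((6 : ℕ) : ℤ)).toNat / 12 = 1 := by decide
    omega
  have c0 : constantCoeff G4ser = 1 := constantCoeff_G4ser
  rw [map_sub, coeff_C_mul, S16.coeff_eisZ]
  interval_cases n
  · rw [coeff_zero_eq_constantCoeff_apply, map_pow, c0]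
    simp
  · rw [coeff_one_pow, coeff_one_G4ser, c0]
    simp

end Fermat.Agent.S36
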