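import Fermat.Agent.S36.Haupt.Red
import Fermat.Agent.S36.Mod.GVSys
import Fermat.Prelude.Def_ModularCurve_X0ModL

/-!
# S36 / [CUSP-MOD] : `[TRUNC]`

If `z` reduces to a power series with non zero constant term and `s(j) z ≡ c(j)` with `s` primitive, then
`s`, `c` may be replaced by polynomials of the same degree `d` whose coefficients of degree `d` are units.
-/

set_option autoImplicit false

open ModularCurve Polynomial Fermat.Agent.RED.Gauss

noncomputable section

namespace Fermat.Agent.S36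

section Order

variable {k : Type*} [Field k]

theorem order_eq_of_coeff {x : LaurentSeries k} {n : ℤ} (h1 : x.coeff n ≠ 0)
    (h2 : ∀ m < n, x.coeff m = 0) : x.order = n := by
  have hx : x ≠ 0 := by rintro rfl; exact h1 rfl
  refine le_antisymm (HahnSeries.order_le_of_coeff_ne_zero h1) ?_
  by_contra hlt
  exact hx (HahnSeries.coeff_order_eq_zero.1 (h2 _ (not_le.1 hlt)))

theorem coeff_aeval_jqModC (p : k[X]) :
    (aeval (jqModC k) p).coeff (-(p.natDegree : ℤ)) = p.leadingCoeff ∧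
      ∀ m < -(p.natDegree : ℤ), (aeval (jqModC k) p).coeff m = 0 := by
  have key : ∀ m : ℤ, (aeval (jqModC k) p).coeff m
      = ∑ i ∈ Finset.range (p.natDegree + 1), p.coeff i * ((jqModC k) ^ i).coeff m := by
    intro m
    rw [aeval_eq_sum_range, HahnSeries.coeff_sum]
    refine Finset.sum_congr rfl fun i _ => ?_
    rw [Algebra.smul_def, algebraMap_laurentSeries_eq_single, HahnSeries.coeff_single_zero_mul]
  constructor
  · rw [key, Finset.sum_range_succ, coeff_jqModC_pow_self, mul_one, Finset.sum_eq_zero, zero_add]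
    · rfl
    · intro i hi
      rw [coeff_jqModC_pow_of_lt, mul_zero]
      have := Finset.mem_range.1 hi
      omega
  · intro m hm
    rw [key]
    refine Finset.sum_eq_zero fun i hi => ?_
    rw [coeff_jqModC_pow_of_lt, mul_zero]
    have := Finset.mem_range.1 hi
    omega

theorem order_aeval_jqModC {p : k[X]} (hp : p ≠ 0) :
    aeval (jqModC k) p ≠ 0 ∧ (aeval (jqModC k) p).order = -(p.natDegree : ℤ) := by
  obtain ⟨h1, h2⟩ := coeff_aeval_jqModC p
  have h3 : (aeval (jqModC k) p).coeff (-(p.natDegree : ℤ)) ≠ 0 := by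
    rw [h1]; exact leadingCoeff_ne_zero.2 hp
  refine ⟨?_, order_eq_of_coeff h3 h2⟩
  intro h0
  rw [h0] at h3
  exact h3 rfl

/-- comparison of degrees. -/
theorem natDegree_eq_of_aeval_mul {S c : k[X]} (hS : S ≠ 0) {zb : LaurentSeries k}
    (hz0 : ∀ n < 0, zb.coeff n = 0) (hz1 : zb.coeff 0 ≠ 0)
    (h : aeval (jqModC k) S * zb = aeval (jqModC k) c) : c ≠ 0 ∧ c.natDegree = S.natDegree := by
  obtain ⟨h1, h2⟩ := order_aeval_jqModC hS
  have hzb : zb ≠ 0 := by rintro rfl; exact hz1 rfl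
  have hzo : zb.order = 0 := order_eq_of_coeff hz1 hz0
  have hc : c ≠ 0 := by
    rintro rfl
    rw [map_zero] at h
    exact mul_ne_zero h1 hzb h
  refine ⟨hc, ?_⟩
  obtain ⟨-, h4⟩ := order_aeval_jqModC hc
  have h5 := HahnSeries.order_mul h1 hzb
  rw [h, h4, h2, hzo, add_zero] at h5
  omega

end Order

variable {L : Type*} [Field L] {A : ValuationSubring L} {k : Type*} [Field k] {π : A →+* k}
  (hπ : IsResMap π) {F : Type*} [Field F] {e : F →+* LaurentSeries L} {lam : L}
  (h : IsDiscEmb A lam e)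
  {R : Type*} [CommRing R] [Algebra R F] {ρ : R →+* k}
  (hc : ∀ r : R, ∃ a : A, e (algebraMap R F r) = HahnSeries.C (a : L) ∧ π a = ρ r)

include hπ h hc in
theorem redTo_aeval {s : F} {sb : LaurentSeries k} (hs : RedTo π (e s) sb) (p : R[X]) :
    RedTo π (e (aeval s p)) (aeval sb (p.map ρ)) := by
  have h1 := gvRed_aeval hπ h hc (s := s) hs.mem p
  rw [gvRed_apply, gvRed_apply, hs.eq] at h1
  exact ⟨_, h1⟩

include hπ h hc in
/-- **[TRUNC]** -/
theorem gv_trunc {ϖR : R} (hker : ∀ r, ρ r = 0 → ϖR ∣ r) (hρ : Function.Surjective ρ)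
    (hu : ∀ r, ρ r ≠ 0 → IsUnit r) {j z : F} (hj : RedTo π (e j) (jqModC k))
    {zb : LaurentSeries k} (hz : RedTo π (e z) zb) (hz0 : ∀ n < 0, zb.coeff n = 0)
    (hz1 : zb.coeff 0 ≠ 0) (S c : R[X]) (hS : ¬ (C ϖR ∣ S))
    (hlt : (gvO π hπ h).valuation (aeval j S * z - aeval j c) < 1) :
    ∃ (S' c' : R[X]) (d : ℕ), S'.natDegree ≤ d ∧ c'.natDegree ≤ d ∧ IsUnit (S'.coeff d) ∧
      IsUnit (c'.coeff d) ∧ (gvO π hπ h).valuation (aeval j S' * z - aeval j c') < 1 := by
  have hSb : S.map ρ ≠ 0 := fun h0 => hS (C_dvd_of_map_eq_zero hker h0)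
  have h1 : RedTo π (e (aeval j S * z - aeval j c))
      (aeval (jqModC k) (S.map ρ) * zb - aeval (jqModC k) (c.map ρ)) := by
    rw [map_sub, map_mul]
    exact ((redTo_aeval hπ h hc hj S).mul hz).sub (redTo_aeval hπ h hc hj c)
  have h2 := h1.unique ((gv_valuation_lt_one_iff hπ h).1 hlt)
  obtain ⟨hcb, hdeg⟩ := natDegree_eq_of_aeval_mul hSb hz0 hz1 (sub_eq_zero.1 h2)
  obtain ⟨S', hS', hS'd⟩ := exists_natDegree_eq_of_mem_lifts (mem_lifts_of_surjective hρ (S.map ρ))
  obtain ⟨c', hc', hc'd⟩ := exists_natDegree_eq_of_mem_lifts (mem_lifts_of_surjective hρ (c.map ρ))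
  refine ⟨S', c', (S.map ρ).natDegree, hS'd.le, by rw [hc'd, hdeg], ?_, ?_, ?_⟩
  · apply hu
    rw [← coeff_map, hS']
    exact leadingCoeff_ne_zero.2 hSb
  · apply hu
    rw [← coeff_map, hc', ← hdeg]
    exact leadingCoeff_ne_zero.2 hcb
  · refine (gv_valuation_lt_one_iff hπ h).2 ?_
    have h3 : RedTo π (e (aeval j S' * z - aeval j c'))
        (aeval (jqModC k) (S'.map ρ) * zb - aeval (jqModC k) (c'.map ρ)) := by
      rw [map_sub, map_mul]
      exact ((redTo_aeval hπ h hc hj S').mul hz).sub (redTo_aeval hπ h hc hj c')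
    rw [hS', hc', h2] at h3
    exact h3

end Fermat.Agent.S36
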