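import Fermat.Agent.S36.Haupt.ValCtx
import Fermat.Agent.S36.Haupt.Trunc
import Fermat.Agent.S36.Abs.GaussSys

/-!
# S36 / [CUSP-MOD] : `[LEVEL]` from the level `q²` to the level `M q²`
-/

set_option autoImplicit false
set_option linter.unusedSectionVars false

open ModularCurve Polynomial Fermat.Agent.S24 Fermat.Agent.S28 Fermat.Agent.RED.Gauss

noncomputable section

namespace Fermat.Agent.S36

section Lvl

variable (L : Type*) [Field L] [Algebra ℚ L] {N N' : ℕ} [NeZero N] [NeZero N']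

theorem lbc_le (h : N ∣ N') : laurentBaseChange L (modularFunctionFieldFull N)
    ≤ laurentBaseChange L (modularFunctionFieldFull N') := by
  rw [laurentBaseChange, IntermediateField.adjoin_le_iff]
  rintro _ ⟨y, hy, rfl⟩
  exact coeffEmb_mem_laurentBaseChange L (full_degeneracy_le h hy)

/-- the inclusion of the function field of level `N` in the function field of level `N'`, `N ∣ N'`. -/
def lvlMap (h : N ∣ N') : ↥(laurentBaseChange L (modularFunctionFieldFull N)) →ₐ[L]
    ↥(laurentBaseChange L (modularFunctionFieldFull N')) :=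
  IntermediateField.inclusion (lbc_le L h)

@[simp] theorem coe_lvlMap (h : N ∣ N') (x : ↥(laurentBaseChange L (modularFunctionFieldFull N))) :
    (lvlMap L h x : LaurentSeries L) = (x : LaurentSeries L) :=
  IntermediateField.coe_inclusion _ x

end Lvl

theorem embF0_lvlMap (A : ValuationSubring Kb) {N N' : ℕ} [NeZero N] [NeZero N'] (h : N ∣ N')
    (y : F0 A N) : embF0 A N' (lvlMap (KK A) h y) = lvlMap Kb h (embF0 A N y) := by
  apply Subtype.ext
  rw [coe_embF0, coe_lvlMap, coe_lvlMap, coe_embF0]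

theorem lvl_dvd₂ (M q : ℕ) : 1 * q * q ∣ M * q * q :=
  Nat.mul_dvd_mul_right (Nat.mul_dvd_mul_right (one_dvd M) q) q

theorem lvl_dvd₁ (M q : ℕ) : 1 * q ∣ M * q := Nat.mul_dvd_mul_right (one_dvd M) q

section Sigma

variable {M q : ℕ} [NeZero M] [NeZero q] (hq : q.Prime) (ζ : Kbˣ)
  (s₁ : FN (1 * q * q) →+* LaurentSeries Kb)
  (h10 : ∀ a : Kb, s₁ (algebraMap Kb (FN (1 * q * q)) a) = HahnSeries.C a)
  (h11 : ∀ y : FN (1 * q), s₁ (heckeAlphaBar Kb (1 * q) q y) = y)
  (h12 : ∀ u : FN 1, s₁ (heckeBetaBar Kb (1 * q) q (heckeBetaBar Kb 1 q u)) = rot ζ u)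
  (s : FN (M * q * q) →+* LaurentSeries Kb)
  (hs0 : ∀ a : Kb, s (algebraMap Kb (FN (M * q * q)) a) = HahnSeries.C a)
  (hs1 : ∀ y : FN (M * q), s (heckeAlphaBar Kb (M * q) q y) = y)
  (hs2 : ∀ u : FN M, s (heckeBetaBar Kb (M * q) q (heckeBetaBar Kb M q u)) = rot ζ u)

include hq h10 h11 h12 hs0 hs1 hs2 in
/-- the expansion at the cusp `1/q` is compatible with the change of level. -/
theorem sigma2_lvlMap (x : FN (1 * q * q)) : s (lvlMap Kb (lvl_dvd₂ M q) x) = s₁ x := by
  have key : s.comp (lvlMap Kb (lvl_dvd₂ M q) : FN (1 * q * q) →+* FN (M * q * q)) = s₁ := by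
    apply ringHom_ext_three 1 q hq
    · intro a
      rw [h10, RingHom.comp_apply]
      have : (lvlMap Kb (lvl_dvd₂ M q) : FN (1 * q * q) →+* FN (M * q * q))
          (algebraMap Kb (FN (1 * q * q)) a) = algebraMap Kb (FN (M * q * q)) a :=
        (lvlMap Kb (lvl_dvd₂ M q)).commutes a
      rw [this, hs0]
    · intro u
      rw [h11, RingHom.comp_apply]
      have : (lvlMap Kb (lvl_dvd₂ M q) : FN (1 * q * q) →+* FN (M * q * q))
          (heckeAlphaBar Kb (1 * q) q (heckeAlphaBar Kb 1 q u))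
          = heckeAlphaBar Kb (M * q) q (lvlMap Kb (lvl_dvd₁ M q) (heckeAlphaBar Kb 1 q u)) := by
        apply Subtype.ext
        show ((lvlMap Kb (lvl_dvd₂ M q) _ : FN (M * q * q)) : LaurentSeries Kb) = _
        rw [coe_lvlMap, coe_heckeAlphaBar, coe_heckeAlphaBar, coe_heckeAlphaBar, coe_lvlMap,
          coe_heckeAlphaBar]
      rw [this, hs1, coe_lvlMap]
    · intro u
      rw [h11, RingHom.comp_apply]
      have : (lvlMap Kb (lvl_dvd₂ M q) : FN (1 * q * q) →+* FN (M * q * q))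
          (heckeAlphaBar Kb (1 * q) q (heckeBetaBar Kb 1 q u))
          = heckeAlphaBar Kb (M * q) q (lvlMap Kb (lvl_dvd₁ M q) (heckeBetaBar Kb 1 q u)) := by
        apply Subtype.ext
        show ((lvlMap Kb (lvl_dvd₂ M q) _ : FN (M * q * q)) : LaurentSeries Kb) = _
        rw [coe_lvlMap, coe_heckeAlphaBar, coe_heckeAlphaBar, coe_lvlMap]
      rw [this, hs1, coe_lvlMap]
    · intro u
      rw [h12, RingHom.comp_apply]
      have : (lvlMap Kb (lvl_dvd₂ M q) : FN (1 * q * q) →+* FN (M * q * q))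
          (heckeBetaBar Kb (1 * q) q (heckeBetaBar Kb 1 q u))
          = heckeBetaBar Kb (M * q) q (heckeBetaBar Kb M q (lvlMap Kb (one_dvd M) u)) := by
        apply Subtype.ext
        show ((lvlMap Kb (lvl_dvd₂ M q) _ : FN (M * q * q)) : LaurentSeries Kb) = _
        rw [coe_lvlMap, coe_heckeBetaBar, coe_heckeBetaBar, coe_heckeBetaBar, coe_heckeBetaBar,
          coe_lvlMap]
      rw [this, hs2, coe_lvlMap]
  exact RingHom.congr_fun key x

end Sigma

namespace Ctx

variable (C : Ctx)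

/-- the same context at the level `M = 1`. -/
abbrev one : Ctx where
  A := C.A
  q := C.q
  M := 1
  hq := C.hq
  hA := C.hA
  hM := one_ne_zero
  hqM := fun h => C.hq.one_lt.ne' (Nat.dvd_one.1 h)
  ζ := C.ζ
  hζ := C.hζ

/-- the inclusion of the level `q²` in the level `M q²`. -/
def lvl : C.one.F →ₐ[C.K] C.F := lvlMap (KK C.A) (lvl_dvd₂ C.M C.q)

theorem coe_lvl (y : C.one.F) : (C.lvl y : LaurentSeries C.K) = (y : LaurentSeries C.K) :=
  coe_lvlMap _ _ y

theorem e3_one_lvl (y : C.one.F) : C.e3 1 (C.lvl y) = C.one.e3 1 y := by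
  rw [e3_one_apply, e3_one_apply, lvl, embF0_lvlMap]
  exact sigma2_lvlMap C.hq C.ζ C.one.sig2 C.one.sig2_const C.one.sig2_al C.one.sig2_be_be
    C.sig2 C.sig2_const C.sig2_al C.sig2_be_be _

theorem val_lvl_lt_one_iff (y : C.one.F) :
    (C.O3 1).valuation (C.lvl y) < 1 ↔ (C.one.O3 1).valuation y < 1 := by
  rw [O3, O3, gv_valuation_lt_one_iff, gv_valuation_lt_one_iff, e3_one_lvl]

theorem coe_j_zero : (C.j 0 : LaurentSeries C.K) = (C.jM : LaurentSeries C.K) := by
  show ((heckeAlphaBar C.K (C.M * C.q) C.q (heckeAlphaBar C.K C.M C.q C.jM) : C.F) :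
    LaurentSeries C.K) = _
  rw [coe_heckeAlphaBar, coe_heckeAlphaBar]

theorem coe_j_two :
    (C.j 2 : LaurentSeries C.K) = qExpand C.K C.q (qExpand C.K C.q (C.jM : LaurentSeries C.K)) := by
  show ((heckeBetaBar C.K (C.M * C.q) C.q (heckeBetaBar C.K C.M C.q C.jM) : C.F) :
    LaurentSeries C.K) = _
  rw [coe_heckeBetaBar, coe_heckeBetaBar]

theorem lvl_j_zero : C.lvl (C.one.j 0) = C.j 0 := by
  apply Subtype.ext
  rw [coe_lvl, coe_j_zero, coe_j_zero]
  rfl

theorem lvl_j_two : C.lvl (C.one.j 2) = C.j 2 := by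
  apply Subtype.ext
  rw [coe_lvl, coe_j_two, coe_j_two]
  rfl

end Ctx

end Fermat.Agent.S36
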