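import Fermat.Agent.S24.Rot
import Fermat.Agent.S28.Defs

/-!
# S36 / [HAUPT] : `[ROTD]`  `u(T) - u(ζT) ≡ (1-ζ) D u  mod (1-ζ)²`, formal part

`K` a field of characteristic zero, `ζ` a primitive `q`-th root of unity (`q` prime),
`IntS K` = series all of whose coefficients are integral over `ℤ`.
-/

set_option autoImplicit false

open ModularCurve Fermat.Agent.S24 Fermat.Agent.S28

noncomputable section

namespace Fermat.Agent.S36

variable {K : Type*} [Field K]

/-- all coefficients are integral over `ℤ` -/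
def IntS (x : LaurentSeries K) : Prop := ∀ n : ℤ, IsIntegral ℤ (x.coeff n)

theorem IntS.add {x y : LaurentSeries K} (hx : IntS x) (hy : IntS y) : IntS (x + y) := by
  intro n
  rw [HahnSeries.coeff_add]
  exact (hx n).add (hy n)

theorem IntS.neg {x : LaurentSeries K} (hx : IntS x) : IntS (-x) := by
  intro n
  rw [HahnSeries.coeff_neg]
  exact (hx n).neg

theorem IntS.mul {x y : LaurentSeries K} (hx : IntS x) (hy : IntS y) : IntS (x * y) := by
  intro n
  rw [HahnSeries.coeff_mul]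
  exact IsIntegral.sum _ fun p _ => (hx p.1).mul (hy p.2)

theorem intS_C {a : K} (ha : IsIntegral ℤ a) : IntS (HahnSeries.C a : LaurentSeries K) := by
  intro n
  rw [HahnSeries.C_apply, HahnSeries.coeff_single]
  split_ifs
  · exact ha
  · exact isIntegral_zero

theorem IntS.pow {x : LaurentSeries K} (hx : IntS x) (n : ℕ) : IntS (x ^ n) := by
  induction n with
  | zero =>
    rw [pow_zero, ← map_one (HahnSeries.C : K →+* LaurentSeries K)]
    exact intS_C isIntegral_one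
  | succ n ih =>
    rw [pow_succ]
    exact ih.mul hx

theorem intS_castLS (u : LaurentSeries ℤ) : IntS (castLS K u) := by
  intro n
  rw [coeffMap_coeff]
  exact isIntegral_algebraMap (R := ℤ) (A := K) (x := u.coeff n)

/-- `D = T d/dT` on Laurent series. -/
def DL (u : LaurentSeries ℤ) : LaurentSeries ℤ :=
  ⟨fun n : ℤ => n * u.coeff n, u.isPWO_support.mono (by
    intro n hn
    simp only [Function.mem_support, ne_eq, mul_eq_zero, not_or] at hn
    exact hn.2)⟩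

@[simp] theorem DL_coeff (u : LaurentSeries ℤ) (n : ℤ) : (DL u).coeff n = n * u.coeff n := rfl

theorem isIntegral_intCast_rotD (n : ℤ) : IsIntegral ℤ (n : K) := by
  have := isIntegral_algebraMap (R := ℤ) (A := K) (x := n)
  simpa using this

/-- `1 - ζ^n = (1-ζ)(n + (1-ζ) ρ)` with `ρ` integral. -/
theorem exists_rho (ζ : Kˣ) (h1 : IsIntegral ℤ (ζ : K)) (h2 : IsIntegral ℤ ((ζ⁻¹ : Kˣ) : K))
    (n : ℤ) : ∃ ρ : K, IsIntegral ℤ ρ ∧
      1 - ((ζ ^ n : Kˣ) : K) = (1 - (ζ : K)) * ((n : K) + (1 - (ζ : K)) * ρ) := by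
  have hπ : IsIntegral ℤ (1 - (ζ : K)) := isIntegral_one.sub h1
  induction n using Int.induction_on with
  | zero => exact ⟨0, isIntegral_zero, by simp⟩
  | succ n ih =>
    obtain ⟨ρ, hρ, h⟩ := ih
    refine ⟨ρ - (((n : ℤ) : K) + (1 - (ζ : K)) * ρ),
      hρ.sub ((isIntegral_intCast_rotD _).add (hπ.mul hρ)), ?_⟩
    rw [zpow_add_one, Units.val_mul]
    push_cast at h ⊢
    linear_combination (ζ : K) * h
  | pred n ih =>
    obtain ⟨ρ, hρ, h⟩ := ih
    refine ⟨ρ + ((ζ⁻¹ : Kˣ) : K) * (((-(n : ℤ) - 1 : ℤ) : K) + (1 - (ζ : K)) * ρ),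
      hρ.add (h2.mul ((isIntegral_intCast_rotD _).add (hπ.mul hρ))), ?_⟩
    have hz : ((ζ⁻¹ : Kˣ) : K) * (ζ : K) = 1 := by rw [← Units.val_mul]; simp
    rw [zpow_sub_one, Units.val_mul]
    simp only [Int.cast_sub, Int.cast_neg, Int.cast_natCast, Int.cast_one] at h ⊢
    generalize ((ζ⁻¹ : Kˣ) : K) = w at *
    generalize ((ζ ^ (-(n : ℤ)) : Kˣ) : K) = a at *
    generalize (ζ : K) = z at *
    linear_combination w * h + ((1 - z) * ((-(n : K) - 1) + (1 - z) * ρ) - 1) * hz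

/-- **[ROTD]** -/
theorem exists_rot_rem (ζ : Kˣ) (h1 : IsIntegral ℤ (ζ : K)) (h2 : IsIntegral ℤ ((ζ⁻¹ : Kˣ) : K))
    (u : LaurentSeries ℤ) : ∃ r : LaurentSeries K, IntS r ∧
      castLS K u - rot ζ (castLS K u)
        = HahnSeries.C (1 - (ζ : K)) * (castLS K (DL u) + HahnSeries.C (1 - (ζ : K)) * r) := by
  choose ρ hρ hρeq using exists_rho ζ h1 h2
  refine ⟨⟨fun n : ℤ => ((u.coeff n : ℤ) : K) * ρ n, u.isPWO_support.mono ?_⟩, ?_, ?_⟩
  · intro n hn
    simp only [Function.mem_support, ne_eq, mul_eq_zero, not_or] at hn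
    intro h0
    exact hn.1 (by rw [h0]; simp)
  · intro n
    exact (isIntegral_intCast_rotD _).mul (hρ n)
  · ext n
    rw [HahnSeries.C_mul_eq_smul, HahnSeries.C_mul_eq_smul]
    simp only [HahnSeries.coeff_sub, HahnSeries.coeff_smul, HahnSeries.coeff_add, rot_coeff,
      coeffMap_coeff, DL_coeff, smul_eq_mul, eq_intCast, Int.cast_mul]
    have := hρeq n
    linear_combination ((u.coeff n : ℤ) : K) * this

/-- quotient form: `1 - u(ζT)/u(T) = (1-ζ)(Du/u + (1-ζ) r)` for a unit `u` of `ℤ((T))`. -/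
theorem exists_rot_quot (ζ : Kˣ) (h1 : IsIntegral ℤ (ζ : K)) (h2 : IsIntegral ℤ ((ζ⁻¹ : Kˣ) : K))
    (u v : LaurentSeries ℤ) (huv : u * v = 1) : ∃ r : LaurentSeries K, IntS r ∧
      1 - rot ζ (castLS K u) * (castLS K u)⁻¹
        = HahnSeries.C (1 - (ζ : K)) * (castLS K (DL u * v) + HahnSeries.C (1 - (ζ : K)) * r) := by
  obtain ⟨r, hr, h⟩ := exists_rot_rem ζ h1 h2 u
  have hUV : castLS K u * castLS K v = 1 := by rw [← map_mul, huv, map_one]
  have hinv : (castLS K u)⁻¹ = castLS K v := inv_eq_of_mul_eq_one_right hUV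
  refine ⟨r * castLS K v, hr.mul (intS_castLS v), ?_⟩
  have hm : castLS K (DL u * v) = castLS K (DL u) * castLS K v :=
    map_mul (coeffMap (Int.castRingHom K)) _ _
  rw [hinv, hm]
  linear_combination (castLS K v) * h - hUV

open Polynomial in
theorem exists_one_add_pow_prime_poly {q : ℕ} (hq : q.Prime) :
    ∃ E : Polynomial ℤ, (1 + X) ^ q = 1 + C (q : ℤ) * X + X ^ q + C (q : ℤ) * X ^ 2 * E := by
  set P : Polynomial ℤ := (1 + X) ^ q - 1 - C (q : ℤ) * X - X ^ q with hP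
  have hcoef : ∀ i, P.coeff i = (q.choose i : ℤ) - (if i = 0 then 1 else 0)
      - (q : ℤ) * (if i = 1 then 1 else 0) - (if i = q then 1 else 0) := by
    intro i
    rw [hP, coeff_sub, coeff_sub, coeff_sub, coeff_one_add_X_pow, coeff_C_mul, coeff_X, coeff_X_pow,
      coeff_one]
    simp [eq_comm]
  have h2 := hq.two_le
  have hdvd : C (q : ℤ) ∣ P := by
    rw [C_dvd_iff_dvd_coeff]
    intro i
    rw [hcoef]
    rcases Nat.lt_trichotomy i q with hi | hi | hi
    · rcases Nat.eq_zero_or_pos i with rfl | hi0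
      · simp [hq.ne_zero.symm]
      · have h1 : (q : ℤ) ∣ (q.choose i : ℤ) := by
          exact_mod_cast hq.dvd_choose_self hi0.ne' hi
        rw [if_neg hi0.ne', if_neg hi.ne, sub_zero, sub_zero]
        exact dvd_sub h1 (Dvd.intro _ rfl)
    · subst hi
      simp [hq.ne_zero, hq.ne_one]
    · rw [Nat.choose_eq_zero_of_lt hi, if_neg (by omega), if_neg (by omega), if_neg (by omega)]
      simp
  obtain ⟨P', hP'⟩ := hdvd
  have hX : X ^ 2 ∣ P' := by
    rw [X_pow_dvd_iff]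
    intro d hd
    have h3 : (q : ℤ) * P'.coeff d = 0 := by
      rw [← coeff_C_mul, ← hP', hcoef]
      interval_cases d
      · simp [hq.ne_zero.symm]
      · simp [hq.ne_one.symm]
    exact (mul_eq_zero.1 h3).resolve_left (by exact_mod_cast hq.ne_zero)
  obtain ⟨E, hE⟩ := hX
  refine ⟨E, ?_⟩
  have : (1 + X) ^ q = P + 1 + C (q : ℤ) * X + X ^ q := by rw [hP]; ring
  rw [this, hP', hE]
  ring

theorem exists_one_add_pow_prime {R : Type*} [CommRing R] {q : ℕ} (hq : q.Prime) (x : R) :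
    ∃ E : R, (1 + x) ^ q = 1 + q * x + x ^ q + q * x ^ 2 * E := by
  obtain ⟨E, hE⟩ := exists_one_add_pow_prime_poly hq
  refine ⟨Polynomial.aeval x E, ?_⟩
  have := congrArg (Polynomial.aeval x) hE
  simpa using this

/-- **[CYCLO]** `(1-ζ)^(q-1) = q (-1 + (1-ζ) ε)`, `ε` integral. -/
theorem exists_cyclo_unit_aux [CharZero K] {q : ℕ} (hq : q.Prime) (ζ : K)
    (hζ : IsPrimitiveRoot ζ q) : ∃ ε : K, IsIntegral ℤ ε ∧
      (1 - ζ) ^ (q - 1) = (q : K) * (-1 + (1 - ζ) * ε) := by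
  have hint : IsIntegral ℤ ζ := hζ.isIntegral hq.pos
  have hπ0 : 1 - ζ ≠ 0 := sub_ne_zero.2 (hζ.ne_one hq.one_lt).symm
  rcases hq.eq_two_or_odd' with rfl | hodd
  · have h1 : ζ = -1 := hζ.eq_neg_one_of_two_right
    refine ⟨1, isIntegral_one, ?_⟩
    rw [h1]
    norm_num
  · let x : integralClosure ℤ K := ⟨-(1 - ζ), (isIntegral_one.sub hint).neg⟩
    obtain ⟨E, hE⟩ := exists_one_add_pow_prime hq x
    refine ⟨(E : K), E.2, ?_⟩
    have h1 := congrArg (fun z : integralClosure ℤ K => (z : K)) hE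
    simp only [x, Subalgebra.coe_add, Subalgebra.coe_mul, Subalgebra.coe_pow, Subalgebra.coe_one,
      SubringClass.coe_natCast] at h1
    have h2 : (1 + -(1 - ζ)) ^ q = 1 := by
      have : 1 + -(1 - ζ) = ζ := by ring
      rw [this, hζ.pow_eq_one]
    rw [h2, hodd.neg_pow] at h1
    obtain ⟨m, hm⟩ : ∃ m, q = m + 1 := ⟨q - 1, (Nat.sub_add_cancel hq.one_le).symm⟩
    have h3 : q - 1 = m := by omega
    rw [h3]
    apply mul_left_cancel₀ hπ0
    have h4 : (1 - ζ) ^ q = (1 - ζ) * (1 - ζ) ^ m := by rw [hm, pow_succ']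
    rw [h4] at h1
    linear_combination h1

/-- **[CYCLO]** `(1-ζ)^(q-1) = q (-1 + (1-ζ) ε)`, `ε` integral  (Wilson). -/
theorem exists_cyclo_unit [CharZero K] {q : ℕ} (hq : q.Prime) (ζ : Kˣ)
    (hζ : IsPrimitiveRoot ζ q) : ∃ ε : K, IsIntegral ℤ ε ∧
      (1 - (ζ : K)) ^ (q - 1) = (q : K) * (-1 + (1 - (ζ : K)) * ε) :=
  exists_cyclo_unit_aux hq (ζ : K) (IsPrimitiveRoot.coe_units_iff.2 hζ)

theorem exists_add_C_mul_pow {a b : LaurentSeries K} (c : K) (hc : IsIntegral ℤ c) (ha : IntS a)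
    (hb : IntS b) (n : ℕ) : ∃ r : LaurentSeries K, IntS r ∧
      (a + HahnSeries.C c * b) ^ n = a ^ n + HahnSeries.C c * r := by
  induction n with
  | zero => exact ⟨0, fun n => by rw [HahnSeries.coeff_zero]; exact isIntegral_zero, by simp⟩
  | succ n ih =>
    obtain ⟨r, hr, h⟩ := ih
    refine ⟨r * (a + HahnSeries.C c * b) + a ^ n * b,
      (hr.mul (ha.add ((intS_C hc).mul hb))).add ((ha.pow n).mul hb), ?_⟩
    rw [pow_succ, h, pow_succ]
    ring

/-- **[ROTPOW]** `(1 - u(ζT)/u(T))^(q-1) = q (-(Du/u)^(q-1) + (1-ζ) R)`. -/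
theorem exists_rot_pow [CharZero K] {q : ℕ} (hq : q.Prime) (ζ : Kˣ) (hζ : IsPrimitiveRoot ζ q)
    (u v : LaurentSeries ℤ) (huv : u * v = 1) : ∃ R : LaurentSeries K, IntS R ∧
      (1 - rot ζ (castLS K u) * (castLS K u)⁻¹) ^ (q - 1)
        = HahnSeries.C (q : K) *
          (- castLS K ((DL u * v) ^ (q - 1)) + HahnSeries.C (1 - (ζ : K)) * R) := by
  have h1 : IsIntegral ℤ (ζ : K) := (IsPrimitiveRoot.coe_units_iff.2 hζ).isIntegral hq.pos
  have h2 : IsIntegral ℤ ((ζ⁻¹ : Kˣ) : K) :=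
    (IsPrimitiveRoot.coe_units_iff.2 hζ.inv).isIntegral hq.pos
  have hπ : IsIntegral ℤ (1 - (ζ : K)) := isIntegral_one.sub h1
  obtain ⟨r, hr, h⟩ := exists_rot_quot ζ h1 h2 u v huv
  obtain ⟨ε, hε, hcy⟩ := exists_cyclo_unit hq ζ hζ
  obtain ⟨r', hr', h'⟩ := exists_add_C_mul_pow (1 - (ζ : K)) hπ (intS_castLS (K := K) (DL u * v)) hr
    (q - 1)
  refine ⟨HahnSeries.C ε * castLS K (DL u * v) ^ (q - 1) + -r' +
      HahnSeries.C (1 - (ζ : K)) * (HahnSeries.C ε * r'), ?_, ?_⟩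
  · exact (((intS_C hε).mul ((intS_castLS _).pow _)).add hr'.neg).add
      ((intS_C hπ).mul ((intS_C hε).mul hr'))
  · have hC : (HahnSeries.C (1 - (ζ : K)) : LaurentSeries K) ^ (q - 1) =
        HahnSeries.C (q : K) * (-1 + HahnSeries.C (1 - (ζ : K)) * HahnSeries.C ε) := by
      rw [← map_pow, hcy, map_mul, map_add, map_neg, map_one, map_mul]
    have hp : castLS K ((DL u * v) ^ (q - 1)) = castLS K (DL u * v) ^ (q - 1) :=
      map_pow (coeffMap (Int.castRingHom K)) _ _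
    rw [h, mul_pow, h', hC, hp]
    ring

end Fermat.Agent.S36
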