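import Fermat.Agent.S36.Haupt.TElem
import Fermat.Agent.S36.Haupt.RotD
import Fermat.Agent.S36.Haupt.Jac4
import Fermat.Agent.RED.Frobk.Basic
import Fermat.Prelude.Def_ModularCurve_HeckeOperator

/-!
# S36 / [HAUPT] : the local generators `ϖ = 1 - h(τ)/h(q²τ)` and `ϖ_j = 1 - j(τ)/j(q²τ)` of the
middle component

For ANY ring hom `s : FN (M*q*q) → Kb((T))` with `s ∘ α = id` and `s ∘ β ∘ β = (T ↦ ζT)`
(e.g. the expansion at the middle cusp, `exists_sigma2`):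

* `sigma_varpi`      : `s ϖ = (1-ζ) (-G² + (1-ζ) r)`;
* `sigma_varpi_pow`  : `s ϖ ^ (q-1) = q (-(-G²)^(q-1) + (1-ζ) R)`;
* `sigma_varpiJ`, `sigma_varpiJ_pow` : the same with `-G²` replaced by `w ∈ 1 + T ℤ[[T]]`.
`r, R` have coefficients integral over `ℤ` (`IntS`).
-/

set_option autoImplicit false
set_option linter.unusedSectionVars false

open ModularCurve Fermat.Agent.S24 Fermat.Agent.S28

noncomputable section

namespace Fermat.Agent.S36

/-! ### formal part -/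

/-- `T^m f`. -/
def monS (m : ℤ) (f : PowerSeries ℤ) : LaurentSeries ℤ :=
  HahnSeries.single m 1 * HahnSeries.ofPowerSeries ℤ ℤ f

theorem monS_coeff (m : ℤ) (f : PowerSeries ℤ) (n : ℤ) :
    (monS m f).coeff n = (HahnSeries.ofPowerSeries ℤ ℤ f).coeff (n - m) := by
  rw [monS]
  have := HahnSeries.coeff_single_mul_add (r := (1 : ℤ)) (x := HahnSeries.ofPowerSeries ℤ ℤ f)
    (a := n - m) (b := m)
  rw [one_mul, sub_add_cancel] at this
  exact this

theorem monS_mul (m n : ℤ) (f g : PowerSeries ℤ) : monS m f * monS n g = monS (m + n) (f * g) := by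
  rw [monS, monS, monS, map_mul]
  have : (HahnSeries.single (m + n) (1 : ℤ) : LaurentSeries ℤ)
      = HahnSeries.single m 1 * HahnSeries.single n 1 := by
    rw [HahnSeries.single_mul_single, one_mul]
  rw [this]
  ring

theorem monS_zero (f : PowerSeries ℤ) : monS 0 f = HahnSeries.ofPowerSeries ℤ ℤ f := by
  rw [monS]
  have : (HahnSeries.single (0 : ℤ) (1 : ℤ) : LaurentSeries ℤ) = 1 := rfl
  rw [this, one_mul]

theorem DL_monS (m : ℤ) (f : PowerSeries ℤ) :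
    DL (monS m f) = monS m (thD f + PowerSeries.C m * f) := by
  ext n
  rw [DL_coeff, monS_coeff, monS_coeff]
  rcases le_or_gt 0 (n - m) with hk | hk
  · obtain ⟨k, hk'⟩ := Int.eq_ofNat_of_zero_le hk
    rw [hk', HahnSeries.ofPowerSeries_apply_coeff, HahnSeries.ofPowerSeries_apply_coeff, map_add,
      coeff_thD, PowerSeries.coeff_C_mul]
    have : n = k + m := by omega
    rw [this]
    ring
  · rw [ofPowerSeries_coeff_of_neg _ hk, ofPowerSeries_coeff_of_neg _ hk, mul_zero]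

theorem DL_monS_mul (m : ℤ) (f g : PowerSeries ℤ) (hfg : f * g = 1) :
    DL (monS m f) * monS (-m) g = HahnSeries.ofPowerSeries ℤ ℤ (thD f * g + PowerSeries.C m) := by
  rw [DL_monS, monS_mul, add_neg_cancel, monS_zero, add_mul, mul_assoc, hfg, mul_one]

theorem tSer_eq : tSer = monS (-1) psi8 := rfl

theorem hSer_eq : hSer = monS 1 psi8inv := by
  rw [hSer, monS, map_mul, HahnSeries.ofPowerSeries_X]

/-- `D t / t = - G²`. -/
theorem DL_tSer_mul : DL tSer * hSer = - HahnSeries.ofPowerSeries ℤ ℤ (G4ser ^ 2) := by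
  have h := DL_monS_mul (-1) psi8 psi8inv psi8_mul_inv
  rw [neg_neg] at h
  rw [tSer_eq, hSer_eq, h, ← map_neg]
  congr 1
  have h1 := thD_psi8 jac4
  have h2 : thD psi8 = psi8 - psi8 * G4ser ^ 2 := by linear_combination h1
  rw [h2, sub_mul, psi8_mul_inv, map_neg, map_one]
  have : psi8 * G4ser ^ 2 * psi8inv = (psi8 * psi8inv) * G4ser ^ 2 := by ring
  rw [this, psi8_mul_inv]
  ring

/-- the formal expansion of `1/j`. -/
def jInvSer : LaurentSeries ℤ := monS 1 (jNum.invOfUnit 1)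

theorem jNum_mul_inv : jNum * jNum.invOfUnit 1 = 1 :=
  PowerSeries.mul_invOfUnit _ _ (by rw [constantCoeff_jNum]; rfl)

theorem jqModC_int_eq : jqModC ℤ = monS (-1) jNum := by
  rw [jqModC, monS]
  congr 2

theorem jInvSer_mul : jInvSer * jqModC ℤ = 1 := by
  rw [jInvSer, jqModC_int_eq, monS_mul, add_neg_cancel, monS_zero, mul_comm, jNum_mul_inv, map_one]

/-- `D(1/j)/(1/j) = -Dj/j ∈ 1 + T ℤ[[T]]`. -/
def wJ : PowerSeries ℤ := thD (jNum.invOfUnit 1) * jNum + 1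

theorem constantCoeff_wJ : PowerSeries.constantCoeff wJ = 1 := by
  rw [wJ, map_add, map_mul, map_one]
  have : PowerSeries.constantCoeff (thD (jNum.invOfUnit 1)) = 0 := by
    rw [← PowerSeries.coeff_zero_eq_constantCoeff_apply, coeff_thD]
    simp
  rw [this, zero_mul, zero_add]

theorem DL_jInvSer_mul : DL jInvSer * jqModC ℤ = HahnSeries.ofPowerSeries ℤ ℤ wJ := by
  rw [jInvSer, jqModC_int_eq, DL_monS_mul 1 _ _ (by rw [mul_comm]; exact jNum_mul_inv), wJ, map_one]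

/-! ### the elements -/

variable (M q : ℕ) [NeZero M] [NeZero q]

/-- `a₀ = α ∘ α`. -/
def aa0 : FN M →+* FN (M * q * q) :=
  (heckeAlphaBar Kb (M * q) q : FN (M * q) →+* FN (M * q * q)).comp
    (heckeAlphaBar Kb M q : FN M →+* FN (M * q))

/-- `a₂ = β ∘ β`. -/
def aa2 : FN M →+* FN (M * q * q) :=
  (heckeBetaBar Kb (M * q) q : FN (M * q) →+* FN (M * q * q)).comp
    (heckeBetaBar Kb M q : FN M →+* FN (M * q))

theorem aa0_apply (u : FN M) :
    aa0 M q u = heckeAlphaBar Kb (M * q) q (heckeAlphaBar Kb M q u) := rfl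

theorem aa2_apply (u : FN M) :
    aa2 M q u = heckeBetaBar Kb (M * q) q (heckeBetaBar Kb M q u) := rfl

/-- `ϖ = 1 - h(τ)/h(q²τ)`. -/
def varpi (h4 : 4 ∣ M) : FN (M * q * q) := 1 - aa0 M q (hF M h4) * (aa2 M q (hF M h4))⁻¹

/-- `ϖ_j = 1 - j(τ)/j(q²τ)`. -/
def varpiJ : FN (M * q * q) := 1 - aa0 M q (jF M) * (aa2 M q (jF M))⁻¹

section Sigma

variable {M q}
variable (s : FN (M * q * q) →+* LaurentSeries Kb) (ζ : Kbˣ)
  (hs1 : ∀ y : FN (M * q), s (heckeAlphaBar Kb (M * q) q y) = y)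
  (hs2 : ∀ u : FN M, s (heckeBetaBar Kb (M * q) q (heckeBetaBar Kb M q u)) = rot ζ u)

include hs1 hs2

theorem s_one_sub (x : FN M) (u v : LaurentSeries ℤ) (huv : u * v = 1)
    (hx : (x : LaurentSeries Kb) = castLS Kb v) :
    s (1 - aa0 M q x * (aa2 M q x)⁻¹) = 1 - rot ζ (castLS Kb u) * (castLS Kb u)⁻¹ := by
  have h1 : castLS Kb u * castLS Kb v = 1 := by rw [← map_mul, huv, map_one]
  have h2 : castLS Kb v = (castLS Kb u)⁻¹ := eq_inv_of_mul_eq_one_right h1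
  rw [map_sub, map_one, map_mul, map_inv₀, aa0_apply, aa2_apply, hs1, hs2, coe_heckeAlphaBar, hx, h2,
    rot_inv, inv_inv, mul_comm]

theorem s_varpi (h4 : 4 ∣ M) :
    s (varpi M q h4) = 1 - rot ζ (castLS Kb tSer) * (castLS Kb tSer)⁻¹ :=
  s_one_sub s ζ hs1 hs2 (hF M h4) tSer hSer tSer_mul_hSer (coe_hF M h4)

theorem s_varpiJ :
    s (varpiJ M q) = 1 - rot ζ (castLS Kb jInvSer) * (castLS Kb jInvSer)⁻¹ := by
  refine s_one_sub s ζ hs1 hs2 (jF M) jInvSer (jqModC ℤ) jInvSer_mul ?_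
  have : ((jF M : FN M) : LaurentSeries Kb) = jqNModC Kb 1 := coe_jBar M 1 (one_dvd M)
  rw [this, jqNModC_one]
  exact (coeffMap_jqModC _).symm

variable (hq : q.Prime) (hζ : IsPrimitiveRoot ζ q)

omit [NeZero M] hs1 hs2 in
include hζ in
theorem isIntegral_zeta : IsIntegral ℤ (ζ : Kb) ∧ IsIntegral ℤ ((ζ⁻¹ : Kbˣ) : Kb) := by
  have hq0 : 0 < q := Nat.pos_of_ne_zero (NeZero.ne q)
  have h1 : (ζ : Kb) ^ q = 1 := by
    rw [← Units.val_pow_eq_pow_val, hζ.pow_eq_one, Units.val_one]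
  have h2 : ((ζ⁻¹ : Kbˣ) : Kb) ^ q = 1 := by
    rw [← Units.val_pow_eq_pow_val, inv_pow, hζ.pow_eq_one, inv_one, Units.val_one]
  exact ⟨IsIntegral.of_pow hq0 (by rw [h1]; exact isIntegral_one),
    IsIntegral.of_pow hq0 (by rw [h2]; exact isIntegral_one)⟩

include hζ in
/-- `s ϖ = (1-ζ)(-G² + (1-ζ) r)`. -/
theorem sigma_varpi (h4 : 4 ∣ M) : ∃ r : LaurentSeries Kb, IntS r ∧
    s (varpi M q h4) = HahnSeries.C (1 - (ζ : Kb)) *
      (- castLS Kb (HahnSeries.ofPowerSeries ℤ ℤ (G4ser ^ 2)) + HahnSeries.C (1 - (ζ : Kb)) * r) := by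
  obtain ⟨i1, i2⟩ := isIntegral_zeta ζ hζ
  obtain ⟨r, hr, h⟩ := exists_rot_quot ζ i1 i2 tSer hSer tSer_mul_hSer
  refine ⟨r, hr, ?_⟩
  rw [s_varpi s ζ hs1 hs2 h4, h, DL_tSer_mul]
  simp only [castLS, map_neg]

include hq hζ in
/-- `(s ϖ)^(q-1) = q (-(-G²)^(q-1) + (1-ζ) R)`. -/
theorem sigma_varpi_pow (h4 : 4 ∣ M) : ∃ R : LaurentSeries Kb, IntS R ∧
    s (varpi M q h4) ^ (q - 1) = HahnSeries.C (q : Kb) *
      (- (- castLS Kb (HahnSeries.ofPowerSeries ℤ ℤ (G4ser ^ 2))) ^ (q - 1)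
        + HahnSeries.C (1 - (ζ : Kb)) * R) := by
  obtain ⟨R, hR, h⟩ := exists_rot_pow hq ζ hζ tSer hSer tSer_mul_hSer
  refine ⟨R, hR, ?_⟩
  rw [s_varpi s ζ hs1 hs2 h4, h, DL_tSer_mul]
  simp only [castLS, map_neg, map_pow]

include hζ in
/-- `s ϖ_j = (1-ζ)(w + (1-ζ) r)`, `w ∈ 1 + T ℤ[[T]]`. -/
theorem sigma_varpiJ : ∃ r : LaurentSeries Kb, IntS r ∧
    s (varpiJ M q) = HahnSeries.C (1 - (ζ : Kb)) *
      (castLS Kb (HahnSeries.ofPowerSeries ℤ ℤ wJ) + HahnSeries.C (1 - (ζ : Kb)) * r) := by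
  obtain ⟨i1, i2⟩ := isIntegral_zeta ζ hζ
  obtain ⟨r, hr, h⟩ := exists_rot_quot ζ i1 i2 jInvSer (jqModC ℤ) jInvSer_mul
  refine ⟨r, hr, ?_⟩
  rw [s_varpiJ s ζ hs1 hs2, h, DL_jInvSer_mul]

include hq hζ in
/-- `(s ϖ_j)^(q-1) = q (- w^(q-1) + (1-ζ) R)`. -/
theorem sigma_varpiJ_pow : ∃ R : LaurentSeries Kb, IntS R ∧
    s (varpiJ M q) ^ (q - 1) = HahnSeries.C (q : Kb) *
      (- (castLS Kb (HahnSeries.ofPowerSeries ℤ ℤ wJ)) ^ (q - 1)
        + HahnSeries.C (1 - (ζ : Kb)) * R) := by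
  obtain ⟨R, hR, h⟩ := exists_rot_pow hq ζ hζ jInvSer (jqModC ℤ) jInvSer_mul
  refine ⟨R, hR, ?_⟩
  rw [s_varpiJ s ζ hs1 hs2, h, DL_jInvSer_mul]
  simp only [castLS, map_pow]

end Sigma

/-! ### expansions at `∞` and at `W ∞`, integrality, rationality -/

section More

variable (M q : ℕ) [NeZero M] [NeZero q] (h4 : 4 ∣ M)

theorem four_mul_dvd₀ {M : ℕ} (q : ℕ) (h4 : 4 ∣ M) : 4 * 1 ∣ M * q * q := by
  rw [mul_one]; exact (h4.mul_right q).mul_right q

theorem four_mul_dvd₂ {M : ℕ} (q : ℕ) (h4 : 4 ∣ M) : 4 * (q * q) ∣ M * q * q := by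
  rw [mul_assoc M q q]; exact mul_dvd_mul_right h4 _

theorem aa0_hF : aa0 M q (hF M h4) = hFD 1 (M * q * q) (four_mul_dvd₀ q h4) := by
  apply Subtype.ext
  rw [aa0_apply, coe_heckeAlphaBar, coe_heckeAlphaBar]
  rfl

theorem aa2_hF : aa2 M q (hF M h4) = hFD (q * q) (M * q * q) (four_mul_dvd₂ q h4) := by
  apply Subtype.ext
  rw [aa2_apply, coe_heckeBetaBar, coe_heckeBetaBar, coe_hF, coe_hFD, qExpand_qExpand]

/-- `ϖ` is integral over `Kb[j]`. -/
theorem isIntegral_one_sub_mul_abs {K F : Type*} [Field K] [Field F] [Algebra K F] (j : F)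
    {x y : F} (hx : IsIntegral (Algebra.adjoin K {j}) x) (hy : IsIntegral (Algebra.adjoin K {j}) y) :
    IsIntegral (Algebra.adjoin K {j}) (1 - x * y) := isIntegral_one.sub (hx.mul hy)

theorem isIntegral_varpi : IsIntegral (Algebra.adjoin Kb {jF (M * q * q)}) (varpi M q h4) := by
  rw [varpi, aa0_hF, aa2_hF]
  exact isIntegral_one_sub_mul_abs (jF (M * q * q)) (isIntegral_hFD _ _ _)
    (isIntegral_hFD_inv _ _ _)

/-- the expansion of `ϖ` at `∞`. -/
def varpiSer (q : ℕ) [NeZero q] : LaurentSeries ℤ := 1 - hSer * qExpand ℤ (q * q) tSer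

/-- the expansion of `ϖ ∘ W` at `∞`. -/
def varpiSerW (q : ℕ) [NeZero q] : LaurentSeries ℤ := 1 - qExpand ℤ (q * q) hSer * tSer

theorem coe_varpi : (varpi M q h4 : LaurentSeries Kb) = castLS Kb (varpiSer q) := by
  rw [varpi, aa0_hF, aa2_hF]
  have h1 : ((1 - hFD 1 (M * q * q) (four_mul_dvd₀ q h4) *
      (hFD (q * q) (M * q * q) (four_mul_dvd₂ q h4))⁻¹ : FN (M * q * q)) : LaurentSeries Kb)
      = 1 - (hFD 1 (M * q * q) (four_mul_dvd₀ q h4) : LaurentSeries Kb) *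
        (((hFD (q * q) (M * q * q) (four_mul_dvd₂ q h4))⁻¹ : FN (M * q * q)) :
          LaurentSeries Kb) := rfl
  rw [h1, coe_hFD_inv, coe_hFD, qExpand_one_apply, varpiSer]
  simp only [castLS, map_sub, map_one, map_mul, coeffMap_qExpand]

/-- for any `w` exchanging `a₀` and `a₂` (e.g. `exists_W2`). -/
theorem coe_w_varpi (w : FN (M * q * q) →+* FN (M * q * q))
    (hw0 : ∀ u : FN M, w (heckeAlphaBar Kb (M * q) q (heckeAlphaBar Kb M q u))
      = heckeBetaBar Kb (M * q) q (heckeBetaBar Kb M q u))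
    (hw2 : ∀ u : FN M, w (heckeBetaBar Kb (M * q) q (heckeBetaBar Kb M q u))
      = heckeAlphaBar Kb (M * q) q (heckeAlphaBar Kb M q u)) :
    (w (varpi M q h4) : LaurentSeries Kb) = castLS Kb (varpiSerW q) := by
  have e : w (varpi M q h4) = 1 - aa2 M q (hF M h4) * (aa0 M q (hF M h4))⁻¹ := by
    rw [varpi, map_sub, map_one, map_mul, map_inv₀, aa0_apply, aa2_apply, hw0, hw2]
  rw [e, aa0_hF, aa2_hF]
  have h1 : ((1 - hFD (q * q) (M * q * q) (four_mul_dvd₂ q h4) *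
      (hFD 1 (M * q * q) (four_mul_dvd₀ q h4))⁻¹ : FN (M * q * q)) : LaurentSeries Kb)
      = 1 - (hFD (q * q) (M * q * q) (four_mul_dvd₂ q h4) : LaurentSeries Kb) *
        (((hFD 1 (M * q * q) (four_mul_dvd₀ q h4))⁻¹ : FN (M * q * q)) :
          LaurentSeries Kb) := rfl
  rw [h1, coe_hFD_inv, coe_hFD, qExpand_one_apply, varpiSerW]
  simp only [castLS, map_sub, map_one, map_mul, coeffMap_qExpand]

theorem qExpand_monS (n : ℕ) [NeZero n] (m : ℤ) (f : PowerSeries ℤ) :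
    qExpand ℤ n (monS m f) = monS (n * m) (f.expand n (NeZero.ne n)) := by
  rw [monS, map_mul, qExpand_single, RED.qExpand_ofPowerSeries, monS]

theorem monS_coeff_self (m : ℤ) (f : PowerSeries ℤ) :
    (monS m f).coeff m = PowerSeries.constantCoeff f := by
  rw [monS_coeff, sub_self]
  have := HahnSeries.ofPowerSeries_apply_coeff (Γ := ℤ) f 0
  simpa using this

theorem monS_coeff_of_lt (m : ℤ) (f : PowerSeries ℤ) {n : ℤ} (h : n < m) :
    (monS m f).coeff n = 0 := by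
  rw [monS_coeff]
  exact ofPowerSeries_coeff_of_neg _ (by omega)

/-- the coefficient of `T^(1-q²)` in `ϖ` is `-1`. -/
theorem varpiSer_coeff (hq : 1 < q) : (varpiSer q).coeff (1 - (q : ℤ) * q) = -1 := by
  have h1 : hSer * qExpand ℤ (q * q) tSer
      = monS (1 - (q : ℤ) * q) (psi8inv * psi8.expand (q * q) (NeZero.ne _)) := by
    rw [hSer_eq, tSer_eq, qExpand_monS, monS_mul]
    congr 1
    push_cast
    ring
  rw [varpiSer, h1, HahnSeries.coeff_sub, monS_coeff_self, map_mul, constantCoeff_psi8inv,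
    PowerSeries.constantCoeff_expand, constantCoeff_psi8]
  have h2 : (1 : ℤ) - (q : ℤ) * q ≠ 0 := by
    have : (1 : ℤ) < q := by exact_mod_cast hq
    nlinarith
  rw [HahnSeries.coeff_one, if_neg h2]
  norm_num

/-- the constant coefficient of `ϖ ∘ W` is `1`. -/
theorem varpiSerW_coeff (hq : 1 < q) : (varpiSerW q).coeff 0 = 1 := by
  have h1 : qExpand ℤ (q * q) hSer * tSer
      = monS ((q : ℤ) * q - 1) (psi8inv.expand (q * q) (NeZero.ne _) * psi8) := by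
    rw [hSer_eq, tSer_eq, qExpand_monS, monS_mul]
    congr 1
    push_cast
    ring
  have h2 : (0 : ℤ) < (q : ℤ) * q - 1 := by
    have : (1 : ℤ) < q := by exact_mod_cast hq
    nlinarith
  rw [varpiSerW, h1, HahnSeries.coeff_sub, monS_coeff_of_lt _ _ h2, HahnSeries.coeff_one, if_pos rfl,
    sub_zero]

end More

end Fermat.Agent.S36
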