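import Fermat.Agent.S36.Mod.GV
import Fermat.Agent.S36.Haupt.RotD
import Fermat.Agent.RED.Frobk.Basic

/-!
# S36 / [HAUPT] : a calculus for the reduction `bigRed π` of Laurent series

`RedTo π x y` : `x ∈ bigO π` and `bigRed π x = y`.
-/

set_option autoImplicit false

open ModularCurve Fermat.Agent.S24 Fermat.Agent.S28 Fermat.Agent.RED.Gauss

noncomputable section

namespace Fermat.Agent.S36

variable {L : Type*} [Field L] {A : ValuationSubring L} {k : Type*} [Field k]

/-- `x` lies in the big Gauss ring and reduces to `y`. -/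
def RedTo (π : A →+* k) (x : LaurentSeries L) (y : LaurentSeries k) : Prop :=
  ∃ hx : x ∈ bigO π, bigRed π ⟨x, hx⟩ = y

variable {π : A →+* k} {x x' : LaurentSeries L} {y y' : LaurentSeries k}

theorem RedTo.mem (h : RedTo π x y) : x ∈ bigO π := h.1

theorem RedTo.eq (h : RedTo π x y) : bigRed π ⟨x, h.mem⟩ = y := h.2

theorem RedTo.unique (h : RedTo π x y) (h' : RedTo π x y') : y = y' := by
  rw [← h.eq, ← h'.eq]

theorem redTo_self (hx : x ∈ bigO π) : RedTo π x (bigRed π ⟨x, hx⟩) := ⟨hx, rfl⟩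

theorem redTo_zero : RedTo π 0 0 := ⟨(bigO π).zero_mem, map_zero (bigRed π)⟩

theorem redTo_one : RedTo π 1 1 := ⟨(bigO π).one_mem, map_one (bigRed π)⟩

theorem RedTo.add (h : RedTo π x y) (h' : RedTo π x' y') : RedTo π (x + x') (y + y') := by
  obtain ⟨hx, rfl⟩ := h
  obtain ⟨hx', rfl⟩ := h'
  refine ⟨(bigO π).add_mem hx hx', ?_⟩
  have : (⟨x + x', (bigO π).add_mem hx hx'⟩ : bigO π) = ⟨x, hx⟩ + ⟨x', hx'⟩ := rfl
  rw [this, map_add]

theorem RedTo.mul (h : RedTo π x y) (h' : RedTo π x' y') : RedTo π (x * x') (y * y') := by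
  obtain ⟨hx, rfl⟩ := h
  obtain ⟨hx', rfl⟩ := h'
  refine ⟨(bigO π).mul_mem hx hx', ?_⟩
  have : (⟨x * x', (bigO π).mul_mem hx hx'⟩ : bigO π) = ⟨x, hx⟩ * ⟨x', hx'⟩ := rfl
  rw [this, map_mul]

theorem RedTo.neg (h : RedTo π x y) : RedTo π (-x) (-y) := by
  obtain ⟨hx, rfl⟩ := h
  refine ⟨(bigO π).neg_mem hx, ?_⟩
  have : (⟨-x, (bigO π).neg_mem hx⟩ : bigO π) = -⟨x, hx⟩ := rfl
  rw [this, map_neg]

theorem RedTo.sub (h : RedTo π x y) (h' : RedTo π x' y') : RedTo π (x - x') (y - y') := by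
  rw [sub_eq_add_neg, sub_eq_add_neg]; exact h.add h'.neg

theorem RedTo.pow (h : RedTo π x y) (n : ℕ) : RedTo π (x ^ n) (y ^ n) := by
  induction n with
  | zero => simpa using redTo_one
  | succ n ih => rw [pow_succ, pow_succ]; exact ih.mul h

theorem RedTo.inv (h : RedTo π x y) (hy : y ≠ 0) : RedTo π x⁻¹ y⁻¹ := by
  have h0 : bigRed π ⟨x, h.mem⟩ ≠ 0 := by rw [h.eq]; exact hy
  exact ⟨gv_inv_mem_bigO π h.mem h0, by rw [gv_bigRed_inv π h.mem h0, h.eq]⟩

theorem RedTo.div (h : RedTo π x y) (h' : RedTo π x' y') (hy : y' ≠ 0) :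
    RedTo π (x / x') (y / y') := by
  rw [div_eq_mul_inv, div_eq_mul_inv]; exact h.mul (h'.inv hy)

theorem RedTo.congr (h : RedTo π x y) (hx : x = x') (hy : y = y') : RedTo π x' y' := by
  subst hx; subst hy; exact h

theorem redTo_iota (a : LaurentSeries A) : RedTo π (iota A a) (pi π a) :=
  ⟨iota_mem_bigO π a, bigRed_iota π a⟩

theorem redTo_C {c : L} (hc : c ∈ A) : RedTo π (HahnSeries.C c) (HahnSeries.C (π ⟨c, hc⟩)) :=
  ⟨gv_C_mem_bigO π hc, gv_bigRed_C π hc⟩

theorem redTo_C_zero (hπ : IsResMap π) {c : L} (hc : A.valuation c < 1) :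
    RedTo π (HahnSeries.C c) 0 := by
  have hc' : c ∈ A := (ValuationSubring.valuation_le_one_iff _ _).1 hc.le
  refine (redTo_C hc').congr rfl ?_
  rw [(hπ.ker _).2 hc, map_zero]

theorem iota_castLS (u : LaurentSeries ℤ) : iota A (castLS A u) = castLS L u := by
  rw [iota, castLS, castLS, coeffMap_coeffMap]
  exact coeffMap_congr (RingHom.ext_int _ _) _

theorem pi_castLS (u : LaurentSeries ℤ) : pi π (castLS A u) = castLS k u := by
  rw [pi, castLS, castLS, coeffMap_coeffMap]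
  exact coeffMap_congr (RingHom.ext_int _ _) _

theorem redTo_castLS (u : LaurentSeries ℤ) : RedTo π (castLS L u) (castLS k u) :=
  (redTo_iota (castLS A u)).congr (iota_castLS u) (pi_castLS u)

theorem mem_of_isIntegral_int (A : ValuationSubring L) {c : L} (hc : IsIntegral ℤ c) : c ∈ A := by
  have h1 : IsIntegral A c := hc.tower_top
  obtain ⟨y, hy⟩ := IsIntegrallyClosed.algebraMap_eq_of_integral h1
  rw [← hy]; exact y.2

theorem IntS.exists_iota (A : ValuationSubring L) {r : LaurentSeries L} (hr : IntS r) :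
    ∃ a : LaurentSeries A, iota A a = r := by
  refine ⟨⟨fun n => ⟨r.coeff n, mem_of_isIntegral_int A (hr n)⟩, r.isPWO_support.mono ?_⟩, ?_⟩
  · intro n hn
    simp only [Function.mem_support, ne_eq] at hn
    simp only [HahnSeries.mem_support, ne_eq]
    intro h0
    exact hn (Subtype.ext h0)
  · ext n
    simp [iota]

theorem IntS.mem_bigO (π : A →+* k) {r : LaurentSeries L} (hr : IntS r) : r ∈ bigO π := by
  obtain ⟨a, rfl⟩ := hr.exists_iota A
  exact iota_mem_bigO π a

/-- `c r ≡ 0` if `v(c) < 1` and `r` is integral. -/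
theorem IntS.redTo_C_mul (hπ : IsResMap π) {c : L} (hc : A.valuation c < 1)
    {r : LaurentSeries L} (hr : IntS r) : RedTo π (HahnSeries.C c * r) 0 :=
  ((redTo_C_zero hπ hc).mul (redTo_self (hr.mem_bigO π))).congr rfl (zero_mul _)

/-- `x + c r ≡ x`. -/
theorem RedTo.add_C_mul (h : RedTo π x y) (hπ : IsResMap π) {c : L} (hc : A.valuation c < 1)
    {r : LaurentSeries L} (hr : IntS r) : RedTo π (x + HahnSeries.C c * r) y :=
  (h.add (hr.redTo_C_mul hπ hc)).congr rfl (add_zero _)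

theorem RedTo.normalForm {lam : L} (h : RedTo π x y) (hy : y ≠ 0) (n : ℤ) :
    NormalForm π lam (HahnSeries.C (lam ^ n) * x) n :=
  ⟨x, h.mem, by rw [h.eq]; exact hy, rfl⟩

theorem RedTo.normalForm_zero {lam : L} (h : RedTo π x y) (hy : y ≠ 0) :
    NormalForm π lam x 0 := by
  have := h.normalForm (lam := lam) hy 0
  simpa using this

theorem RedTo.normalForm_one {lam : L} (h : RedTo π x y) (hy : y ≠ 0) :
    NormalForm π lam (HahnSeries.C lam * x) 1 := by
  have := h.normalForm (lam := lam) hy 1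
  simpa using this

/-- `u(ζT) ≡ u(T)` if `v(1-ζ) < 1`. -/
theorem redTo_rot (hπ : IsResMap π) (ζ : Lˣ) (h1 : IsIntegral ℤ (ζ : L))
    (h2 : IsIntegral ℤ ((ζ⁻¹ : Lˣ) : L)) (hζ : A.valuation (1 - (ζ : L)) < 1)
    (u : LaurentSeries ℤ) : RedTo π (rot ζ (castLS L u)) (castLS k u) := by
  obtain ⟨r, hr, h⟩ := exists_rot_rem ζ h1 h2 u
  have hI : IntS (castLS L (DL u) + HahnSeries.C (1 - (ζ : L)) * r) :=
    (intS_castLS _).add ((intS_C (isIntegral_one.sub h1)).mul hr)
  have h3 : rot ζ (castLS L u) = castLS L u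
      - HahnSeries.C (1 - (ζ : L)) * (castLS L (DL u) + HahnSeries.C (1 - (ζ : L)) * r) := by
    rw [← h]; ring
  rw [h3]
  exact ((redTo_castLS u).sub (hI.redTo_C_mul hπ hζ)).congr rfl (sub_zero _)

/-- `u(T^q) ≡ u(T)^q` in characteristic `q`. -/
theorem castLS_qExpand_eq_pow (q : ℕ) [NeZero q] [ExpChar k q] (u : LaurentSeries ℤ) :
    qExpand k q (castLS k u) = castLS k u ^ q := by
  rw [← RED.qExpand_coeffMap_frobenius q (castLS k u), castLS, coeffMap_coeffMap]
  congr 1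
  exact coeffMap_congr (RingHom.ext_int _ _) _

theorem redTo_qExpand (q : ℕ) [NeZero q] [ExpChar k q] (u : LaurentSeries ℤ) :
    RedTo π (qExpand L q (castLS L u)) (castLS k u ^ q) := by
  have h := redTo_castLS (π := π) (qExpand ℤ q u)
  refine h.congr ?_ ?_
  · simp only [castLS, coeffMap_qExpand]
  · rw [← castLS_qExpand_eq_pow]
    simp only [castLS, coeffMap_qExpand]

/-- a series over `ℤ` with a coefficient `±1`-like (unit mod everything) is nonzero over any field. -/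
theorem castLS_ne_zero_of_coeff {u : LaurentSeries ℤ} {n : ℤ} (h : IsUnit (u.coeff n)) :
    castLS k u ≠ 0 := by
  intro h0
  have h1 := congrArg (fun z => z.coeff n) h0
  simp only [castLS, coeffMap_coeff, HahnSeries.coeff_zero] at h1
  exact (h.map (Int.castRingHom k)).ne_zero h1

end Fermat.Agent.S36
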