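import Fermat.Agent.S36.Haupt.THol
import Fermat.Agent.S36.Haupt.Formal
import Fermat.Agent.S36.Haupt.HolInt

/-!
# S36 / [HAUPT] : `h(dτ)`, `h = (η(4τ)/η(τ))^8`, as an element of the function field of `X₀(N)`,
`4 d ∣ N`
-/

set_option autoImplicit false
set_option linter.unusedSectionVars false

open Complex Function Filter ModularForm ModularCurve
open UpperHalfPlane hiding I
open scoped Real MatrixGroups Manifold Topology
open Fermat.Agent.S24 Fermat.Agent.S28

noncomputable section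

namespace Fermat.Agent.S36

local notation "𝕢" => Periodic.qParam

/-- the formal expansion of `h`. -/
def hSer : LaurentSeries ℤ := HahnSeries.ofPowerSeries ℤ ℤ (PowerSeries.X * psi8inv)

/-- the formal expansion of `t = 1/h`. -/
def tSer : LaurentSeries ℤ := HahnSeries.single (-1) 1 * HahnSeries.ofPowerSeries ℤ ℤ psi8

theorem tSer_mul_hSer : tSer * hSer = 1 := by
  rw [tSer, hSer, map_mul, HahnSeries.ofPowerSeries_X]
  calc HahnSeries.single (-1 : ℤ) (1 : ℤ) * HahnSeries.ofPowerSeries ℤ ℤ psi8 *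
        (HahnSeries.single 1 1 * HahnSeries.ofPowerSeries ℤ ℤ psi8inv)
      = (HahnSeries.single (-1 : ℤ) (1 : ℤ) * HahnSeries.single 1 1) *
        HahnSeries.ofPowerSeries ℤ ℤ (psi8 * psi8inv) := by rw [map_mul]; ring
    _ = 1 := by
        rw [psi8_mul_inv, (HahnSeries.ofPowerSeries ℤ ℤ).map_one, mul_one,
          HahnSeries.single_mul_single]
        simp

theorem tay_phiH : tay phiH = (PowerSeries.X * psi8inv).map (Int.castRingHom ℂ) := by
  have a1 := analyticAt_of_diffOn diffOn_eulerP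
  have a4 := analyticAt_of_diffOn (diffOn_comp_pow diffOn_eulerP (d := 4) (by norm_num))
  have aid : AnalyticAt ℂ (fun q : ℂ => q) 0 := analyticAt_id
  have key : tay (phiH * eulerP ^ 8) = tay ((fun q : ℂ => q) * (fun q => eulerP (q ^ 4)) ^ 8) := by
    apply tay_congr
    filter_upwards [Metric.ball_mem_nhds (0 : ℂ) one_pos] with q hq
    have h1 := eulerP_ne_zero hq
    simp only [Pi.mul_apply, Pi.pow_apply, phiH]
    field_simp
  rw [tay_mul (analyticAt_of_diffOn diffOn_phiH) (a1.pow 8), tay_mul aid (a4.pow 8), tay_pow a1,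
    tay_pow a4, tay_id, tay_eulerP_one, tay_eulerP_pow 4 (by norm_num)] at key
  have hc : PowerSeries.constantCoeff (eS 1 ^ 8) = 1 := by simp [constantCoeff_eS]
  have hne := map_ne_zero_of_const hc
  apply mul_right_cancel₀ hne
  rw [map_pow, key, psi8inv, ← map_pow, ← map_pow, map_mul, map_mul, PowerSeries.map_X, mul_assoc,
    mul_assoc, ← map_mul, mul_comm ((eS 1 ^ 8).invOfUnit 1),
    PowerSeries.mul_invOfUnit _ 1 (by rw [hc]; rfl), map_one, mul_one]

theorem ofPowerSeries_qExpansion_phiH :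
    HahnSeries.ofPowerSeries ℤ ℂ (qExpansion 1 (ofDisc phiH)) = castLS ℂ hSer := by
  rw [qExpansion_ofDisc (continuousAt_of_diffOn diffOn_phiH), tay_phiH, hSer]
  exact (coeffMap_ofPowerSeries _ _).symm

variable (d : ℕ) [NeZero d]

theorem ofDisc_phiH_scal_mem : ofDisc phiH ∘ scal d ∈ HolPer 1 := by
  have h := ofDisc_mem_HolPer diffOn_phiH
  exact ⟨mdiff_comp_scal d h.1, by simpa using periodic_comp_scal d (by simpa using h.2.1),
    isBoundedAtImInfty_comp_scal d h.2.2⟩

/-- `h(dτ)` as an element of `HolPer 1`. -/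
def hPerD : HolPer 1 := ⟨ofDisc phiH ∘ scal d, ofDisc_phiH_scal_mem d⟩

theorem inclHol_hPerD : inclHol 1 (hPerD d) = hHolD d := by
  apply Subtype.ext
  funext τ
  show ofDisc phiH (scal d τ) = H4 (scal d τ)
  rw [H4_eq_phiH]; rfl

theorem toMer_hPerD :
    toMer 1 (algebraMap (HolPer 1) (MerPer 1) (hPerD d)) = algebraMap Hol Mer (hHolD d) := by
  rw [toMer_algebraMap, inclHol_hPerD]

theorem coeffMap_iotaK_castLS (u : LaurentSeries ℤ) :
    coeffMap iotaK.toRingHom (castLS Kb u) = castLS ℂ u := by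
  rw [coeffMap_coeffMap]
  exact coeffMap_congr (RingHom.ext_int _ _) _

theorem toLaurent_hPerD :
    toLaurent 1 (algebraMap (HolPer 1) (MerPer 1) (hPerD d))
      = coeffMap iotaK.toRingHom (qExpand Kb d (castLS Kb hSer)) := by
  rw [toLaurent_algebraMap]
  have h := ofDisc_mem_HolPer diffOn_phiH
  have h1 := ofPowerSeries_qExpansion_comp_scal d (f := ofDisc phiH) (by simpa using h.2.1) h.1
    h.2.2
  rw [ofPowerSeries_qExpansion_phiH] at h1
  rw [coeffMap_qExpand, coeffMap_iotaK_castLS, ← h1]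
  simp [hPerD]

variable (N : ℕ) [NeZero N] (hd : 4 * d ∣ N)

include hd in
theorem qExpand_hSer_mem : qExpand Kb d (castLS Kb hSer) ∈ modularFunctionFieldBar N :=
  RED.mem_bar_of_mem_RN N (hHolD d) (hHolD_mem_RN hd) _ (toMer_hPerD d) _ (toLaurent_hPerD d)

/-- `h(dτ)` as an element of the function field of `X₀(N)`. -/
def hFD : FN N := ⟨qExpand Kb d (castLS Kb hSer), qExpand_hSer_mem d N hd⟩

@[simp] theorem coe_hFD : (hFD d N hd : LaurentSeries Kb) = qExpand Kb d (castLS Kb hSer) := rfl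

theorem ThetaMer_hFD : ThetaMer N (hFD d N hd) = algebraMap Hol Mer (hHolD d) :=
  RED.ThetaMer_eq_of_mem_RN N (hHolD d) (hHolD_mem_RN hd) _ (toMer_hPerD d) _ (toLaurent_hPerD d)

theorem castLS_tSer_mul : castLS Kb tSer * castLS Kb hSer = 1 := by
  rw [← map_mul, tSer_mul_hSer, map_one]

theorem qExpand_tSer_mul :
    qExpand Kb d (castLS Kb tSer) * qExpand Kb d (castLS Kb hSer) = 1 := by
  rw [← map_mul, castLS_tSer_mul, map_one]

theorem coe_hFD_inv :
    (((hFD d N hd)⁻¹ : FN N) : LaurentSeries Kb) = qExpand Kb d (castLS Kb tSer) := by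
  have h1 : (((hFD d N hd)⁻¹ : FN N) : LaurentSeries Kb) = (qExpand Kb d (castLS Kb hSer))⁻¹ := rfl
  rw [h1]
  exact (eq_inv_of_mul_eq_one_left (qExpand_tSer_mul d)).symm

theorem hFD_ne_zero : hFD d N hd ≠ 0 := by
  intro h
  have h1 := congrArg (fun x : FN N => (x : LaurentSeries Kb)) h
  simp only [coe_hFD] at h1
  have h2 := qExpand_tSer_mul d
  rw [h1] at h2
  simp at h2

theorem ThetaMer_hFD_inv : ThetaMer N (hFD d N hd)⁻¹ = algebraMap Hol Mer (tHolD d) := by
  rw [map_inv₀, ThetaMer_hFD]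
  apply inv_eq_of_mul_eq_one_right
  rw [← map_mul, hHolD_mul_tHolD, map_one]

theorem isIntegral_hFD : IsIntegral (Algebra.adjoin Kb {jF N}) (hFD d N hd) :=
  isIntegral_of_mem_RN N _ (hHolD d) (hHolD_mem_RN hd) (ThetaMer_hFD d N hd)

theorem isIntegral_hFD_inv : IsIntegral (Algebra.adjoin Kb {jF N}) (hFD d N hd)⁻¹ :=
  isIntegral_of_mem_RN N _ (tHolD d) (tHolD_mem_RN hd) (ThetaMer_hFD_inv d N hd)

/-- `h` as an element of the function field of `X₀(M)`, `4 ∣ M`. -/
def hF (M : ℕ) [NeZero M] (h4 : 4 ∣ M) : FN M := hFD 1 M (by simpa using h4)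

@[simp] theorem coe_hF (M : ℕ) [NeZero M] (h4 : 4 ∣ M) :
    (hF M h4 : LaurentSeries Kb) = castLS Kb hSer := by
  rw [hF, coe_hFD, qExpand_one_apply]

end Fermat.Agent.S36
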