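import Fermat.Agent.S36.Theta.Inst

/-!
# S36 / [HAUPT] : the Hauptmodul `h = (η(4τ)/η(τ))^8` of `X₀(4)`, analytic part
-/

set_option autoImplicit false

open Complex Function Filter ModularForm Matrix.SpecialLinearGroup
open UpperHalfPlane hiding I
open scoped Real MatrixGroups Manifold Topology
open Fermat.Agent.S24

noncomputable section

namespace Fermat.Agent.S36

local notation "𝕢" => Periodic.qParam
local notation "Δ" => ModularForm.discriminant

/-- `h = η(4τ)^8 / η(τ)^8`. -/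
def H4 (z : ℂ) : ℂ := η (4 * z) ^ 8 / η z ^ 8

theorem H4_ne_zero {z : ℂ} (hz : 0 < z.im) : H4 z ≠ 0 :=
  div_ne_zero (pow_ne_zero _ (eta_ne_zero' (im_four_mul_pos hz))) (pow_ne_zero _ (eta_ne_zero' hz))

theorem H4_add_one (z : ℂ) : H4 (z + 1) = H4 z := by
  unfold H4
  have h4 : η (4 * (z + 1)) = cexp (π * I / 12) ^ 4 * η (4 * z) := by
    rw [← eta_add_nat]; congr 1; push_cast; ring
  rw [h4, eta_add_one]
  have he : cexp (π * I / 12) ≠ 0 := Complex.exp_ne_zero _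
  have h24 : cexp (π * I / 12) ^ 24 = 1 := by
    rw [← Complex.exp_nat_mul]
    have : ((24 : ℕ) : ℂ) * (π * I / 12) = 2 * π * I := by push_cast; ring
    rw [this, Complex.exp_two_pi_mul_I]
  have : (cexp (π * I / 12) ^ 4 * η (4 * z)) ^ 8
      = cexp (π * I / 12) ^ 24 * (cexp (π * I / 12) ^ 8 * η (4 * z) ^ 8) := by ring
  rw [this, h24, one_mul, mul_pow]
  by_cases h0 : η z = 0
  · simp [h0]
  field_simp

theorem H4_sub_one (z : ℂ) : H4 (z - 1) = H4 z := by
  have := H4_add_one (z - 1)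
  rw [sub_add_cancel] at this
  exact this.symm

theorem H4_fricke {z : ℂ} (hz : 0 < z.im) : H4 (-1 / (4 * z)) = 1 / (256 * H4 z) := by
  have hz0 : z ≠ 0 := by rintro rfl; simp at hz
  unfold H4
  have e4 : (4 : ℂ) * (-1 / (4 * z)) = -1 / z := by field_simp
  rw [e4]
  have h1 := eta_S_sq hz
  have h4 := eta_S_sq (im_four_mul_pos hz)
  have a1 : η (-1 / z) ^ 8 = (-I * z * η z ^ 2) ^ 4 := by rw [← h1]; ring
  have a4 : η (-1 / (4 * z)) ^ 8 = (-I * (4 * z) * η (4 * z) ^ 2) ^ 4 := by rw [← h4]; ring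
  rw [a1, a4]
  have n1 := eta_ne_zero' hz
  have n4 := eta_ne_zero' (im_four_mul_pos hz)
  have hI : I ≠ 0 := Complex.I_ne_zero
  field_simp
  ring

theorem H4_lowU {z : ℂ} (hz : 0 < z.im) : H4 (z / (4 * z + 1)) = H4 z := by
  have hz0 : z ≠ 0 := by rintro rfl; simp at hz
  have h41 : (4 : ℂ) * z + 1 ≠ 0 := by
    simpa using nat_mul_add_one_ne_zero hz (n := 4) (by norm_num)
  have hw : 0 < (-1 / (4 * z)).im := by
    simpa using im_neg_one_div_nat_mul_pos hz (n := 4) (by norm_num)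
  have hy : 0 < (-1 / (4 * z) - 1).im := by simpa using hw
  have e : z / (4 * z + 1) = -1 / (4 * (-1 / (4 * z) - 1)) := by
    have : (4 : ℂ) * (-1 / (4 * z) - 1) = -(4 * z + 1) / z := by field_simp; ring
    rw [this]
    field_simp
  have hne := H4_ne_zero hz
  rw [e, H4_fricke hy, H4_sub_one, H4_fricke hz]
  field_simp

theorem H4_smul (g : SL(2, ℤ)) (hg : (4 : ℤ) ∣ g 1 0) (τ : ℍ) :
    H4 ((g • τ : ℍ) : ℂ) = H4 τ := by
  have key : ∀ τ : ℍ, H4 ((g • τ : ℍ) : ℂ) = H4 τ := by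
    refine gamma0_induction 4 (Or.inr rfl) (fun g => ∀ τ : ℍ, H4 ((g • τ : ℍ) : ℂ) = H4 τ)
      ?_ ?_ ?_ ?_ ?_ ?_ g hg
    · intro τ
      rw [coe_smul_eq]
      simp [cd]
    · intro τ
      rw [coe_smul_eq]
      simp [cd, H4_add_one]
    · intro τ
      rw [coe_smul_eq]
      have := H4_lowU τ.im_pos
      simpa [cd] using this
    · intro τ; simp
    · intro a b ha hb τ
      rw [mul_smul, ha, hb]
    · intro a ha τ
      have h1 := ha (a⁻¹ • τ)
      rw [smul_inv_smul] at h1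
      exact h1.symm
  exact key τ

theorem H4_pow_three (τ : ℍ) : H4 τ ^ 3 = S28.Unit.W 4 τ := by
  rw [W_eq_eta 4 (by norm_num), H4]
  push_cast
  rw [div_pow]
  ring

/-- `h` as a function of `q`. -/
def phiH (q : ℂ) : ℂ := q * (eulerP (q ^ 4) ^ 8 / eulerP q ^ 8)

theorem H4_eq_phiH (z : ℂ) : H4 z = phiH (𝕢 1 z) := by
  have h4 := eta_nat_mul 4 z
  push_cast at h4
  unfold H4 phiH
  rw [h4, eta_eq' z]
  have ht : 𝕢 24 z ≠ 0 := Periodic.qParam_ne_zero z
  have h24 : 𝕢 24 z ^ 24 = 𝕢 1 z := by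
    simp only [Periodic.qParam, ← Complex.exp_nat_mul]
    congr 1
    push_cast
    ring
  rw [← h24]
  by_cases h1 : eulerP (𝕢 24 z ^ 24) = 0
  · simp [h1]
  field_simp

theorem diffOn_phiH : DifferentiableOn ℂ phiH (Metric.ball 0 1) := by
  unfold phiH
  refine DifferentiableOn.mul differentiableOn_id ?_
  exact DifferentiableOn.div ((diffOn_comp_pow diffOn_eulerP (by norm_num)).pow 8)
    (diffOn_eulerP.pow 8) (fun q hq => pow_ne_zero _ (eulerP_ne_zero hq))

end Fermat.Agent.S36
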