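import Fermat.Agent.S36.Haupt.TFun
import Fermat.Agent.S36.Theta.Ratio

/-!
# S36 / [HAUPT] : `h(dτ)` and `1/h(dτ)` as elements of `RN N` (`4 d ∣ N`)
-/

set_option autoImplicit false
set_option linter.unusedSectionVars false

open Complex Function Filter ModularForm Matrix.SpecialLinearGroup CongruenceSubgroup
open UpperHalfPlane hiding I
open scoped Real MatrixGroups Manifold Topology
open Fermat.Agent.S24 Fermat.Agent.S24.CPAlt

noncomputable section

namespace Fermat.Agent.S36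

local notation "𝕢" => Periodic.qParam
local notation "Δ" => ModularForm.discriminant

/-- raw form of the invariance of `h`. -/
theorem H4_automorphy (a b c d : ℤ) (hdet : a * d - b * c = 1) (hc : (4 : ℤ) ∣ c) {z : ℂ}
    (hz : 0 < z.im) : H4 (((a : ℂ) * z + b) / ((c : ℂ) * z + d)) = H4 z := by
  let g : SL(2, ℤ) := ⟨!![a, b; c, d], by rw [Matrix.det_fin_two_of]; exact hdet⟩
  have := H4_smul g (show (4 : ℤ) ∣ c from hc) ⟨z, hz⟩
  rw [coe_smul_eq g] at this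
  simpa [cd, g] using this

theorem mdiff_H4 : MDiff (fun τ : ℍ => H4 τ) := by
  have := mdiff_ofDisc diffOn_phiH
  have e : (fun τ : ℍ => H4 τ) = ofDisc phiH := by
    funext τ
    rw [H4_eq_phiH]; rfl
  rw [e]; exact this

variable (d : ℕ) [NeZero d]

/-- `τ ↦ h(dτ)`. -/
def hD (τ : ℍ) : ℂ := H4 (scal d τ)

theorem hD_ne_zero (τ : ℍ) : hD d τ ≠ 0 := H4_ne_zero (scal d τ).im_pos

theorem mdiff_hD : MDiff (hD d) := mdiff_comp_scal d mdiff_H4

theorem hD_smul (γ : SL(2, ℤ)) (hγ : ((4 * d : ℕ) : ℤ) ∣ γ 1 0) (τ : ℍ) :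
    hD d (γ • τ) = hD d τ := by
  obtain ⟨c', hc'⟩ := hγ
  have hd0 : (d : ℂ) ≠ 0 := by exact_mod_cast NeZero.ne d
  have hdet := sl2_det γ
  have h := H4_automorphy (γ 0 0) (γ 0 1 * d) (4 * c') (γ 1 1) (by
    rw [hc'] at hdet
    push_cast at hdet
    linear_combination hdet) (Dvd.intro _ rfl) (scal d τ).im_pos
  have hcd : cd γ τ = (((4 * c' : ℤ)) : ℂ) * ((scal d τ : ℍ) : ℂ) + (γ 1 1 : ℂ) := by
    rw [cd, hc', coe_scal]
    push_cast
    ring
  rw [hD, hD, ← h]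
  congr 1
  rw [← hcd, coe_scal, coe_smul_eq, coe_scal]
  push_cast
  field_simp

theorem hD_pow_three (τ : ℍ) : hD d τ ^ 3 = (S28.Unit.W (4 * d) / S28.Unit.W d) τ := by
  rw [hD, H4_pow_three, W_scal]
  rfl

/-- `h(dτ)` as a holomorphic function. -/
def hHolD : Hol := ⟨hD d, mdiff_hD d⟩

/-- `1/h(dτ)` as a holomorphic function. -/
def tHolD : Hol := ⟨fun τ : ℍ => (hD d τ)⁻¹, S28.mdiff_inv (mdiff_hD d) (hD_ne_zero d)⟩

theorem hHolD_apply (τ : ℍ) : (hHolD d : ℍ → ℂ) τ = hD d τ := rfl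

theorem tHolD_apply (τ : ℍ) : (tHolD d : ℍ → ℂ) τ = (hD d τ)⁻¹ := rfl

theorem hHolD_mul_tHolD : hHolD d * tHolD d = 1 := by
  apply Subtype.ext
  funext τ
  exact mul_inv_cancel₀ (hD_ne_zero d τ)

variable {d} {N : ℕ} [NeZero N]

theorem allU_quot (hd : 4 * d ∣ N) : AllU N (S28.Unit.W (4 * d) / S28.Unit.W d) :=
  (allU_W hd).div (allU_W ((Dvd.intro_left 4 rfl).trans hd))

theorem hHolD_mem_RN (hd : 4 * d ∣ N) : hHolD d ∈ RN N := by
  refine ⟨fun γ hγ => ?_, fun g => ?_⟩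
  · apply Subtype.ext
    funext τ
    rw [actHol_apply]
    exact hD_smul d γ⁻¹ ((Int.natCast_dvd_natCast.mpr hd).trans
      (int_dvd_of_mem_Gamma0 (inv_mem hγ))) τ
  · show ModG ((actHol g (hHolD d) : Hol) : ℍ → ℂ)
    apply modG_of_pow (k := 3) (by norm_num)
    have e : (fun τ => ((actHol g (hHolD d) : Hol) : ℍ → ℂ) τ ^ 3)
        = fun τ => (S28.Unit.W (4 * d) / S28.Unit.W d) (g⁻¹ • τ) := by
      funext τ
      rw [actHol_apply, hHolD_apply, hD_pow_three]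
    rw [e]
    exact modG_of_isU (allU_quot hd g⁻¹)

theorem tHolD_mem_RN (hd : 4 * d ∣ N) : tHolD d ∈ RN N := by
  refine ⟨fun γ hγ => ?_, fun g => ?_⟩
  · apply Subtype.ext
    funext τ
    rw [actHol_apply, tHolD_apply, tHolD_apply]
    rw [hD_smul d γ⁻¹ ((Int.natCast_dvd_natCast.mpr hd).trans
      (int_dvd_of_mem_Gamma0 (inv_mem hγ))) τ]
  · show ModG ((actHol g (tHolD d) : Hol) : ℍ → ℂ)
    apply modG_of_pow (k := 3) (by norm_num)
    have e : (fun τ => ((actHol g (tHolD d) : Hol) : ℍ → ℂ) τ ^ 3)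
        = fun τ => (S28.Unit.W (4 * d) / S28.Unit.W d)⁻¹ (g⁻¹ • τ) := by
      funext τ
      rw [actHol_apply, tHolD_apply, inv_pow, hD_pow_three]
      rfl
    rw [e]
    exact modG_of_isU ((allU_quot hd).inv g⁻¹)

end Fermat.Agent.S36
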