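import Fermat.Agent.S36.Haupt.Red
import Fermat.Agent.S36.Haupt.Main
import Fermat.Agent.S36.Theta.Main
import Fermat.Agent.S36.Mod.F0Defs

/-!
# S36 / [VARPI1] + [C2] : the valuations of `ϖ = 1 - h(τ)/h(q²τ)` and `ϖ_j = 1 - j(τ)/j(q²τ)`

Everything is stated for an arbitrary `s : FN (M*q*q) →+* Kb((T))` with the properties of
`Wt1.exists_sigma2` and an arbitrary residue map `π : A →+* k`.
-/

set_option autoImplicit false
set_option linter.unusedSectionVars false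

open ModularCurve Fermat.Agent.S24 Fermat.Agent.S28 Fermat.Agent.RED.Gauss

noncomputable section

namespace Fermat.Agent.S36

/-! ### general: valuations of `gvO` from `RedTo` -/

section General

variable {L : Type*} [Field L] {A : ValuationSubring L} {k : Type*} [Field k] {π : A →+* k}
  (hπ : IsResMap π) {F : Type*} [Field F] {e : F →+* LaurentSeries L} {lam : L}
  (h : IsDiscEmb A lam e)

theorem gv_val_lt_one_of_redTo {y : F} (hy : RedTo π (e y) 0) : (gvO π hπ h).valuation y < 1 :=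
  (gv_valuation_lt_one_iff hπ h).2 hy

theorem gv_val_eq_one_of_redTo {y : F} {z : LaurentSeries k} (hy : RedTo π (e y) z) (hz : z ≠ 0) :
    (gvO π hπ h).valuation y = 1 :=
  (gv_valuation_eq_one_iff hπ h).2 ⟨hy.mem, by rw [hy.eq]; exact hz⟩

theorem gv_redTo_zero_of_val_lt_one {y : F} (hy : (gvO π hπ h).valuation y < 1) :
    RedTo π (e y) 0 := (gv_valuation_lt_one_iff hπ h).1 hy

theorem gv_mem_of_redTo {y : F} {z : LaurentSeries k} (hy : RedTo π (e y) z) : y ∈ gvO π hπ h :=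
  hy.mem

end General

/-! ### the formal series of `G = θ²` -/

/-- `G` as a Laurent series over `ℤ`. -/
def gS : LaurentSeries ℤ := HahnSeries.ofPowerSeries ℤ ℤ G4ser

/-- `1/G` as a Laurent series over `ℤ`. -/
def gI : LaurentSeries ℤ := HahnSeries.ofPowerSeries ℤ ℤ (G4ser.invOfUnit 1)

theorem gS_mul_gI : gS * gI = 1 := by
  rw [gS, gI, ← map_mul, PowerSeries.mul_invOfUnit _ 1 (by rw [constantCoeff_G4ser]; rfl), map_one]

theorem castLS_gS (R : Type*) [CommRing R] : castLS R gS = wt1Four.GL R := by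
  rw [gS, castLS, coeffMap_ofPowerSeries]; rfl

theorem castLS_gI (R : Type*) [CommRing R] : castLS R gI = wt1Four.GLinv R := by
  rw [gI, castLS, coeffMap_ofPowerSeries]; rfl

theorem castLS_gS_mul_gI (R : Type*) [CommRing R] : castLS R gS * castLS R gI = 1 := by
  rw [← map_mul, gS_mul_gI, map_one]

theorem ofPowerSeries_G4ser_sq : HahnSeries.ofPowerSeries ℤ ℤ (G4ser ^ 2) = gS ^ 2 := by
  rw [gS, map_pow]

section Sigma

variable {A : ValuationSubring Kb} {k : Type*} [Field k] {π : A →+* k} (hπ : IsResMap π)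
  {M q : ℕ} [NeZero M] [NeZero q]
  (s : FN (M * q * q) →+* LaurentSeries Kb) (ζ : Kbˣ)
  (hs1 : ∀ y : FN (M * q), s (heckeAlphaBar Kb (M * q) q y) = y)
  (hs2 : ∀ u : FN M, s (heckeBetaBar Kb (M * q) q (heckeBetaBar Kb M q u)) = rot ζ u)
  (hq : q.Prime) (hζ : IsPrimitiveRoot ζ q) (hv : A.valuation (1 - (ζ : Kb)) < 1)

theorem castLS_gS_ne_zero : castLS k gS ≠ 0 := left_ne_zero_of_mul_eq_one (castLS_gS_mul_gI k)

theorem castLS_gI_ne_zero : castLS k gI ≠ 0 := right_ne_zero_of_mul_eq_one (castLS_gS_mul_gI k)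

include hπ hs1 hs2 hζ hv in
/-- `s ϖ = (1-ζ) u`, `u ≡ -G²`. -/
theorem exists_s_varpi (h4 : 4 ∣ M) : ∃ u : LaurentSeries Kb,
    RedTo π u (-(castLS k gS) ^ 2) ∧ s (varpi M q h4) = HahnSeries.C (1 - (ζ : Kb)) * u := by
  obtain ⟨r, hr, h⟩ := sigma_varpi s ζ hs1 hs2 hζ h4
  refine ⟨_, ?_, h⟩
  rw [ofPowerSeries_G4ser_sq]
  refine RedTo.add_C_mul ?_ hπ hv hr
  refine (redTo_castLS (gS ^ 2)).neg.congr rfl ?_
  simp only [castLS, map_pow]

include hπ hs1 hs2 hζ hv in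
theorem normalForm_s_varpi (h4 : 4 ∣ M) :
    NormalForm π (1 - (ζ : Kb)) (s (varpi M q h4)) 1 := by
  obtain ⟨u, hu, h⟩ := exists_s_varpi hπ s ζ hs1 hs2 hζ hv h4
  rw [h]
  exact hu.normalForm_one (neg_ne_zero.2 (pow_ne_zero _ castLS_gS_ne_zero))

include hπ hs1 hs2 hq hζ hv in
/-- `(s ϖ)^(q-1) / q ≡ -(-G²)^(q-1)`. -/
theorem redTo_s_varpi_pow (h4 : 4 ∣ M) :
    RedTo π (s (varpi M q h4) ^ (q - 1) / HahnSeries.C (q : Kb))
      (-(-(castLS k gS) ^ 2) ^ (q - 1)) := by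
  obtain ⟨R, hR, h⟩ := sigma_varpi_pow s ζ hs1 hs2 hq hζ h4
  have hq0 : (HahnSeries.C (q : Kb) : LaurentSeries Kb) ≠ 0 :=
    HahnSeries.C_ne_zero (by exact_mod_cast hq.ne_zero)
  rw [h, mul_div_cancel_left₀ _ hq0, ofPowerSeries_G4ser_sq]
  refine RedTo.add_C_mul ?_ hπ hv hR
  refine ((redTo_castLS (gS ^ 2)).neg.pow (q - 1)).neg.congr rfl ?_
  simp only [castLS, map_pow]

/-- the series `w_J` over `ℤ`. -/
def wJS : LaurentSeries ℤ := HahnSeries.ofPowerSeries ℤ ℤ wJ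

theorem castLS_wJS (R : Type*) [CommRing R] :
    castLS R wJS = HahnSeries.ofPowerSeries ℤ R (wJ.map (Int.castRingHom R)) := by
  rw [wJS, castLS, coeffMap_ofPowerSeries]

theorem wJS_coeff_zero : wJS.coeff 0 = 1 := by
  have := HahnSeries.ofPowerSeries_apply_coeff (Γ := ℤ) wJ 0
  rw [wJS]
  simpa [constantCoeff_wJ] using this

theorem castLS_wJS_ne_zero : castLS k wJS ≠ 0 :=
  castLS_ne_zero_of_coeff (n := 0) (by rw [wJS_coeff_zero]; exact isUnit_one)

include hπ hs1 hs2 hζ hv in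
theorem exists_s_varpiJ : ∃ u : LaurentSeries Kb,
    RedTo π u (castLS k wJS) ∧ s (varpiJ M q) = HahnSeries.C (1 - (ζ : Kb)) * u := by
  obtain ⟨r, hr, h⟩ := sigma_varpiJ s ζ hs1 hs2 hζ
  exact ⟨_, RedTo.add_C_mul (redTo_castLS wJS) hπ hv hr, h⟩

include hπ hs1 hs2 hζ hv in
theorem normalForm_s_varpiJ : NormalForm π (1 - (ζ : Kb)) (s (varpiJ M q)) 1 := by
  obtain ⟨u, hu, h⟩ := exists_s_varpiJ hπ s ζ hs1 hs2 hζ hv
  rw [h]
  exact hu.normalForm_one castLS_wJS_ne_zero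

include hπ hs1 hs2 hq hζ hv in
/-- `(s ϖ_j)^(q-1) / q ≡ - w_J^(q-1)`. -/
theorem redTo_s_varpiJ_pow :
    RedTo π (s (varpiJ M q) ^ (q - 1) / HahnSeries.C (q : Kb)) (-(castLS k wJS) ^ (q - 1)) := by
  obtain ⟨R, hR, h⟩ := sigma_varpiJ_pow s ζ hs1 hs2 hq hζ
  have hq0 : (HahnSeries.C (q : Kb) : LaurentSeries Kb) ≠ 0 :=
    HahnSeries.C_ne_zero (by exact_mod_cast hq.ne_zero)
  rw [h, mul_div_cancel_left₀ _ hq0]
  exact RedTo.add_C_mul ((redTo_castLS wJS).pow (q - 1)).neg hπ hv hR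

/-! ### `[C2]` -/

variable [ExpChar k q]

include hπ hζ hv in
/-- `G(ζT)/G(T^q) ≡ G^(1-q)`. -/
theorem redTo_rot_GL :
    RedTo π (rot ζ (wt1Four.GL Kb) * qExpand Kb q (wt1Four.GLinv Kb))
      (castLS k gS * castLS k gI ^ q) := by
  obtain ⟨i1, i2⟩ := isIntegral_zeta ζ hζ
  rw [← castLS_gS, ← castLS_gI]
  exact (redTo_rot hπ ζ i1 i2 hv gS).mul (redTo_qExpand q gI)

/-- `G(T)/G(T^q) ≡ G^(1-q)`. -/
theorem redTo_ratS_one :
    RedTo π (wt1Four.ratS Kb 1 q) (castLS k gS * castLS k gI ^ q) := by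
  rw [Wt1.ratS, qExpand_one_apply, ← castLS_gS, ← castLS_gI]
  exact (redTo_castLS gS).mul (redTo_qExpand q gI)

include hπ hs1 hs2 hq hζ hv in
/-- **[C2]** `ϖ^(q-1) a b / q ≡ -1` along the middle component (`q` odd, signed `a`). -/
theorem redTo_c2 (h4 : 4 ∣ M) (hodd : q ≠ 2)
    (hb : s (wt1Four.bF M q h4) = wt1Four.ratS Kb 1 q)
    (ha : s (wt1Four.aF M q h4) = rot ζ (wt1Four.GL Kb) * qExpand Kb q (wt1Four.GLinv Kb)) :
    RedTo π (s (varpi M q h4) ^ (q - 1) * s (wt1Four.aF M q h4) * s (wt1Four.bF M q h4)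
      / HahnSeries.C (q : Kb)) (-1) := by
  have h1 := redTo_s_varpi_pow hπ s ζ hs1 hs2 hq hζ hv h4
  have h2 := (h1.mul (redTo_rot_GL (q := q) hπ ζ hζ hv)).mul (redTo_ratS_one (π := π) (q := q))
  rw [ha, hb]
  refine h2.congr (by ring) ?_
  have he : Even (q - 1) := by
    rcases hq.eq_two_or_odd' with h | h
    · exact absurd h hodd
    · obtain ⟨m, hm⟩ := h
      exact ⟨m, by omega⟩
  have hg := castLS_gS_mul_gI k
  set g := castLS k gS
  set g' := castLS k gI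
  rw [he.neg_pow, ← pow_mul]
  have h3 : 2 * (q - 1) + 2 = 2 * q := by have := hq.two_le; omega
  calc -g ^ (2 * (q - 1)) * (g * g' ^ q) * (g * g' ^ q)
      = -(g ^ (2 * (q - 1) + 2) * g' ^ (2 * q)) := by ring
    _ = -1 := by rw [h3, ← mul_pow, hg, one_pow]

end Sigma

/-! ### the two other components -/

section Other

variable {A : ValuationSubring Kb} {k : Type*} [Field k] {π : A →+* k}
  (M q : ℕ) [NeZero M] [NeZero q] (h4 : 4 ∣ M)

theorem redTo_coe_varpi :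
    RedTo π (varpi M q h4 : LaurentSeries Kb) (castLS k (varpiSer q)) := by
  rw [coe_varpi]; exact redTo_castLS _

theorem castLS_varpiSer_ne_zero (hq : 1 < q) : castLS k (varpiSer q) ≠ 0 :=
  castLS_ne_zero_of_coeff (n := 1 - (q : ℤ) * q) (by rw [varpiSer_coeff q hq]; exact isUnit_one.neg)

theorem redTo_coe_w_varpi (w : FN (M * q * q) →+* FN (M * q * q))
    (hw0 : ∀ u : FN M, w (heckeAlphaBar Kb (M * q) q (heckeAlphaBar Kb M q u))
      = heckeBetaBar Kb (M * q) q (heckeBetaBar Kb M q u))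
    (hw2 : ∀ u : FN M, w (heckeBetaBar Kb (M * q) q (heckeBetaBar Kb M q u))
      = heckeAlphaBar Kb (M * q) q (heckeAlphaBar Kb M q u)) :
    RedTo π (w (varpi M q h4) : LaurentSeries Kb) (castLS k (varpiSerW q)) := by
  rw [coe_w_varpi M q h4 w hw0 hw2]; exact redTo_castLS _

theorem castLS_varpiSerW_ne_zero (hq : 1 < q) : castLS k (varpiSerW q) ≠ 0 :=
  castLS_ne_zero_of_coeff (n := 0) (by rw [varpiSerW_coeff q hq]; exact isUnit_one)

end Other

/-! ### descent to `F0` -/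

section Descent

variable (A : ValuationSubring Kb) (M q : ℕ) [NeZero M] [NeZero q] (h4 : 4 ∣ M)

theorem castLS_coeff_mem_K0 (u : LaurentSeries ℤ) (n : ℤ) : (castLS Kb u).coeff n ∈ K0 A := by
  simp only [castLS, coeffMap_coeff]
  exact intCast_mem _ _

theorem exists_varpi0 : ∃ y : F0 A (M * q * q), embF0 A (M * q * q) y = varpi M q h4 :=
  exists_embF0_eq A _ _ (by rw [coe_varpi]; exact castLS_coeff_mem_K0 A _)

/-- `ϖ = 1 - h(τ)/h(q²τ)` over `KK A`. -/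
def varpi0 : F0 A (M * q * q) := (exists_varpi0 A M q h4).choose

theorem embF0_varpi0 : embF0 A (M * q * q) (varpi0 A M q h4) = varpi M q h4 :=
  (exists_varpi0 A M q h4).choose_spec

end Descent

end Fermat.Agent.S36
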